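/-
S52 (the 3-5 switch): top wiring and the two consumers of the Eichler-Shimura relation on torsion
(`TraceCong20.RelQbar`, proved by the S58 programme).

* `irred_of_frob`   : a good prime `ℓ ≠ p` such that `X² - a_ℓ X + ℓ` has no root modulo the odd
                      prime `p` forces `W[p]` to be irreducible (Frobenius has no eigenline).
* `ap_congr_of_hom` : an additive, Galois-equivariant surjection `W[p] → W'[p]` forces
                      `a_ℓ(W') ≡ a_ℓ(W) (mod p)` at common good primes `ℓ ≠ p`.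
* `s52_of_family`   : the conclusion of the frozen statement S52 from `RelQbar` and the existence
                      of a `5`-congruent semistable curve with irreducible `3`-torsion.
-/
import Mathlib
import Fermat.Prelude.Def_FLTPrelim_Modularity
import Fermat.Prelude.Def_FLTPrelim_ModularRep
import Fermat.Prelude.Def_EllipticCurve_FrobeniusTrace
import Fermat.Agent.ES.Q58.TraceCong20
import Fermat.Agent.ES.Q58.CoordField13
import Fermat.Agent.DivPoly.CardEq29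
import Fermat.Agent.Lib.FrobeniusExists

set_option autoImplicit false

open WeierstrassCurve WeierstrassCurve.Affine WeierstrassCurve.Affine.Point

namespace Fermat.Agent.S52.TopWiring84

open Fermat.Agent.ES.Q58.TraceCong20 (RelQbar)

local notation "Qb" => AlgebraicClosure ℚ
local notation "GQ" => (AlgebraicClosure ℚ ≃ₐ[ℚ] AlgebraicClosure ℚ)

/-- the `n`-torsion of the base change to `ℚ̄` of an integral model, with its Galois action. -/
abbrev Tors (W : WeierstrassCurve ℤ) (n : ℕ) : Type :=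
  Submodule.torsionBy ℤ ((W.map (Int.castRingHom ℚ))⁄Qb).Point n

theorem delta_rat_ne_zero {W : WeierstrassCurve ℤ} (hΔ : W.Δ ≠ 0) :
    (W.map (Int.castRingHom ℚ)).Δ ≠ 0 := by
  rw [WeierstrassCurve.map_Δ]
  simpa using hΔ

theorem delta_ne_zero_of_good {W : WeierstrassCurve ℤ} {ℓ : ℕ} (h : W.IsGoodPrimeFor ℓ) :
    W.Δ ≠ 0 := by
  intro h0
  exact h (h0 ▸ dvd_zero _)

theorem delta_Qb_ne_zero {W : WeierstrassCurve ℤ} (hΔ : W.Δ ≠ 0) :
    ((W.map (Int.castRingHom ℚ))⁄Qb).Δ ≠ 0 :=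
  Fermat.Agent.ES.Q58.CoordField13.baseChange_Δ_ne_zero (delta_rat_ne_zero hΔ)

/-- `W[p]` is two-dimensional over `𝔽_p` for an odd prime `p`. -/
theorem finrank_tors {W : WeierstrassCurve ℤ} (hΔ : W.Δ ≠ 0) {p : ℕ} [Fact p.Prime]
    (hp2 : p ≠ 2) : Module.finrank (ZMod p) (Tors W p) = 2 :=
  Fermat.Agent.DivPoly.CardEq29.finrank_torsionBy_eq_two (delta_Qb_ne_zero hΔ) hp2

theorem nontrivial_tors {W : WeierstrassCurve ℤ} (hΔ : W.Δ ≠ 0) {p : ℕ} [Fact p.Prime]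
    (hp2 : p ≠ 2) : Nontrivial (Tors W p) := by
  have h := finrank_tors hΔ hp2
  exact Module.nontrivial_of_finrank_pos (R := ZMod p) (by rw [h]; norm_num)

/-- the Eichler-Shimura relation, on the torsion module. -/
theorem rel_tors {W : WeierstrassCurve ℤ} (hrel : RelQbar W) {p : ℕ} [hp : Fact p.Prime]
    (hp2 : p ≠ 2) {ℓ : ℕ} (hℓ : ℓ.Prime) (hgood : W.IsGoodPrimeFor ℓ) (hℓp : ℓ ≠ p)
    {A : ValuationSubring Qb} {σ : GQ} (hA : A.LiesOverPrime ℓ) (hσ : A.IsFrobeniusAt σ ℓ)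
    (x : Tors W p) :
    σ • σ • x - W.apOfModel ℓ • (σ • x) + ℓ • x = 0 := by
  have hodd : Odd p := hp.out.odd_of_ne_two hp2
  have hndvd : ¬ ℓ ∣ p := fun h => hℓp ((Nat.prime_dvd_prime_iff_eq hℓ hp.out).mp h)
  have hx : p • (x : ((W.map (Int.castRingHom ℚ))⁄Qb).Point) = 0 := by
    have := x.2
    rw [Submodule.mem_torsionBy_iff] at this
    rw [← natCast_zsmul]; exact this
  have := hrel ℓ hℓ hgood p hodd hndvd A σ hA hσ (x : ((W.map (Int.castRingHom ℚ))⁄Qb).Point) hx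
  apply Subtype.ext
  exact this

/-- **Frobenius criterion for irreducibility.** -/
theorem irred_of_frob {p : ℕ} [hp : Fact p.Prime] (hp2 : p ≠ 2) (W : WeierstrassCurve ℤ)
    (hrel : RelQbar W) {ℓ : ℕ} (hℓ : ℓ.Prime) (hgood : W.IsGoodPrimeFor ℓ) (hℓp : ℓ ≠ p)
    (hroot : ∀ c : ZMod p, c ^ 2 - (W.apOfModel ℓ : ZMod p) * c + (ℓ : ZMod p) ≠ 0) :
    W.ModRepIsIrreducible p := by
  have hΔ : W.Δ ≠ 0 := delta_ne_zero_of_good hgood
  have h2 := finrank_tors hΔ hp2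
  have : Module.Finite (ZMod p) (Tors W p) := Module.finite_of_finrank_pos (by rw [h2]; norm_num)
  refine ⟨nontrivial_tors hΔ hp2, fun N hN => ?_⟩
  by_contra hcon
  rw [not_or] at hcon
  obtain ⟨hbot, htop⟩ := hcon
  -- `N` is a line
  have hlt : Module.finrank (ZMod p) N < 2 := by
    rw [← h2]; exact Submodule.finrank_lt htop
  have hpos : 0 < Module.finrank (ZMod p) N := by
    rw [Module.finrank_pos_iff_exists_ne_zero]
    obtain ⟨v, hvN, hv0⟩ := (Submodule.ne_bot_iff N).mp hbot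
    exact ⟨⟨v, hvN⟩, fun h => hv0 (congrArg Subtype.val h)⟩
  have h1 : Module.finrank (ZMod p) N = 1 := by omega
  obtain ⟨v, hv0, hv⟩ := finrank_eq_one_iff'.mp h1
  -- a Frobenius element at `ℓ`
  obtain ⟨A, σ, hA, hσ⟩ := Fermat.Agent.Lib.exists_isFrobeniusAt ℓ hℓ
  have hσv : σ • (v : Tors W p) ∈ N := hN σ v v.2
  obtain ⟨c, hc⟩ := hv ⟨σ • (v : Tors W p), hσv⟩
  have hc' : σ • (v : Tors W p) = c • (v : Tors W p) := by
    have := congrArg Subtype.val hc
    exact this.symm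
  have hrelv := rel_tors hrel hp2 hℓ hgood hℓp hA hσ (v : Tors W p)
  have hσσ : σ • σ • (v : Tors W p) = (c ^ 2) • (v : Tors W p) := by
    rw [hc', smul_comm σ c, hc', smul_smul, sq]
  rw [hσσ, hc', ← Int.cast_smul_eq_zsmul (ZMod p), ← Nat.cast_smul_eq_nsmul (ZMod p), smul_smul,
    ← sub_smul, ← add_smul] at hrelv
  have hv0' : (v : Tors W p) ≠ 0 := fun h => hv0 (Subtype.ext h)
  rcases smul_eq_zero.mp hrelv with h | h
  · exact hroot c h
  · exact hv0' h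

/-- **Congruence of traces from a Galois-equivariant map on torsion.** -/
theorem ap_congr_of_hom {p : ℕ} [hp : Fact p.Prime] (hp2 : p ≠ 2) (W W' : WeierstrassCurve ℤ)
    (hrel : RelQbar W) (hrel' : RelQbar W')
    (φ : Tors W p →+ Tors W' p) (hsurj : Function.Surjective φ)
    (hφ : ∀ (σ : GQ) (x : Tors W p), φ (σ • x) = σ • φ x)
    {ℓ : ℕ} (hℓ : ℓ.Prime) (hgood : W.IsGoodPrimeFor ℓ) (hgood' : W'.IsGoodPrimeFor ℓ)
    (hℓp : ℓ ≠ p) : (p : ℤ) ∣ W'.apOfModel ℓ - W.apOfModel ℓ := by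
  obtain ⟨A, σ, hA, hσ⟩ := Fermat.Agent.Lib.exists_isFrobeniusAt ℓ hℓ
  have hΔ' : W'.Δ ≠ 0 := delta_ne_zero_of_good hgood'
  -- `(a' - a)` kills `σ • y` for every `y`
  have key : ∀ y : Tors W' p, (W'.apOfModel ℓ - W.apOfModel ℓ) • (σ • y) = 0 := by
    intro y
    obtain ⟨x, rfl⟩ := hsurj y
    have h1 := rel_tors hrel hp2 hℓ hgood hℓp hA hσ x
    have h2 := rel_tors hrel' hp2 hℓ hgood' hℓp hA hσ (φ x)
    have h3 := congrArg φ h1
    rw [_root_.map_zero, map_add, map_sub, map_zsmul, map_nsmul, hφ, hφ] at h3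
    rw [sub_smul]
    have : W'.apOfModel ℓ • (σ • φ x) - W.apOfModel ℓ • (σ • φ x)
        = (σ • σ • φ x - W.apOfModel ℓ • (σ • φ x) + ℓ • φ x)
          - (σ • σ • φ x - W'.apOfModel ℓ • (σ • φ x) + ℓ • φ x) := by abel
    rw [this, h3, h2, sub_zero]
  -- hence it kills everything
  have key' : ∀ z : Tors W' p, (W'.apOfModel ℓ - W.apOfModel ℓ) • z = 0 := by
    intro z
    have := key (σ⁻¹ • z)
    rwa [smul_inv_smul] at this
  -- a nonzero element has additive order `p`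
  have := nontrivial_tors hΔ' hp2
  obtain ⟨z, hz⟩ := exists_ne (0 : Tors W' p)
  have hpz : (p : ℤ) • z = 0 := by
    have := (Submodule.mem_torsionBy_iff _ _).mp z.2
    apply Subtype.ext
    exact this
  have hord : addOrderOf z = p := by
    have hdvd : addOrderOf z ∣ p := by
      apply addOrderOf_dvd_of_nsmul_eq_zero
      rw [← natCast_zsmul]; exact hpz
    rcases (Nat.dvd_prime hp.out).mp hdvd with h | h
    · exact absurd (AddMonoid.addOrderOf_eq_one_iff.mp h) hz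
    · exact h
  have := (addOrderOf_dvd_iff_zsmul_eq_zero (x := z) (i := W'.apOfModel ℓ - W.apOfModel ℓ)).mpr
    (key' z)
  rwa [hord] at this

/-- **The family statement**: what the construction of the `5`-congruent curve has to deliver. -/
def FamilyStmt : Prop :=
  ∀ W : WeierstrassCurve ℤ, W.Δ ≠ 0 → W.IsSemistableModel → W.ModRepIsIrreducible 5 →
    ¬ W.ModRepIsIrreducible 3 →
    ∃ W' : WeierstrassCurve ℤ, W'.Δ ≠ 0 ∧ W'.IsSemistableModel ∧ W'.ModRepIsIrreducible 3 ∧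
      ∃ φ : Tors W 5 →+ Tors W' 5, Function.Surjective φ ∧
        ∀ (σ : GQ) (x : Tors W 5), φ (σ • x) = σ • φ x

/-- Variant of the family statement with the Frobenius criterion for the irreducibility of the
`3`-torsion. -/
def FamilyStmtFrob : Prop :=
  ∀ W : WeierstrassCurve ℤ, W.Δ ≠ 0 → W.IsSemistableModel → W.ModRepIsIrreducible 5 →
    ¬ W.ModRepIsIrreducible 3 →
    ∃ W' : WeierstrassCurve ℤ, W'.Δ ≠ 0 ∧ W'.IsSemistableModel ∧
      (∃ ℓ : ℕ, ℓ.Prime ∧ W'.IsGoodPrimeFor ℓ ∧ ℓ ≠ 3 ∧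
        ∀ c : ZMod 3, c ^ 2 - (W'.apOfModel ℓ : ZMod 3) * c + (ℓ : ZMod 3) ≠ 0) ∧
      ∃ φ : Tors W 5 →+ Tors W' 5, Function.Surjective φ ∧
        ∀ (σ : GQ) (x : Tors W 5), φ (σ • x) = σ • φ x

theorem familyStmt_of_frob (hrel : ∀ W : WeierstrassCurve ℤ, RelQbar W) (h : FamilyStmtFrob) :
    FamilyStmt := by
  intro W hΔ hW h5 h3
  obtain ⟨W', hΔ', hW', ⟨ℓ, hℓ, hgood, hℓ3, hroot⟩, φ, hφ⟩ := h W hΔ hW h5 h3
  have : Fact (Nat.Prime 3) := ⟨Nat.prime_three⟩
  exact ⟨W', hΔ', hW', irred_of_frob (by norm_num) W' (hrel W') hℓ hgood hℓ3 hroot, φ, hφ⟩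

/-- **S52 from the family statement and the Eichler-Shimura relation on torsion.** -/
theorem s52_of_family (hrel : ∀ W : WeierstrassCurve ℤ, RelQbar W) (hfam : FamilyStmt)
    (W : WeierstrassCurve ℤ) (hΔ : W.Δ ≠ 0) (hW : W.IsSemistableModel)
    (h5 : W.ModRepIsIrreducible 5) :
    ∃ W' : WeierstrassCurve ℤ, W'.Δ ≠ 0 ∧ W'.IsSemistableModel ∧ W'.ModRepIsIrreducible 3 ∧
      ∀ ℓ : ℕ, ℓ.Prime → W.IsGoodPrimeFor ℓ → W'.IsGoodPrimeFor ℓ → ℓ ≠ 5 →
        (5 : ℤ) ∣ (W'.apOfModel ℓ - W.apOfModel ℓ) := by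
  by_cases h3 : W.ModRepIsIrreducible 3
  · exact ⟨W, hΔ, hW, h3, fun ℓ _ _ _ _ => by simp⟩
  · obtain ⟨W', hΔ', hW', h3', φ, hsurj, hφ⟩ := hfam W hΔ hW h5 h3
    have : Fact (Nat.Prime 5) := ⟨Nat.prime_five⟩
    refine ⟨W', hΔ', hW', h3', fun ℓ hℓ hg hg' hℓ5 => ?_⟩
    exact_mod_cast ap_congr_of_hom (p := 5) (by norm_num) W W' (hrel W) (hrel W') φ hsurj hφ
      hℓ hg hg' hℓ5

end Fermat.Agent.S52.TopWiring84
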