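/-
S52 (the 3-5 switch): ASSEMBLY of `TopWiring84.FamilyStmt` from the bricks (helper51).

The `5`-congruent family attached to an integral model `W` is given by two integer valued functions
`c4f W t`, `c6f W t` (`t : ℤ`; in the application: explicit polynomials in `t` with coefficients in
`ℤ[c₄, c₆, Δ]`, the Taylor coefficients of Klein's forms along the line `p₀ + t q₀`).  The bricks:

* `FamClose` : `t ∣ c4f W t - c₄(W)` and `t ∣ c6f W t - c₆(W)` (constant terms);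
* `BrickB`   : for every member with nonzero discriminant, a `G_ℚ`-equivariant additive surjection
               between the `5`-torsion of the short curves (specialisation theorem + explicit
               `5`-torsion sections);
* `BrickC`   : outside any finite set of primes there is a prime `ℓ` with `3` a non-square mod `ℓ`
               and a residue class `n mod ℓ` on which `ℓ ∣ c₆(t)`, `ℓ ∤ c₄(t)` (the `j = 1728` fibre;
               Chebotarev + inertia at `3`);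
* `BrickD`   : outside a finite set `B` of primes, `c₄(t)` and `c₆(t)` have no common prime factor
               (the far clause).

`familyStmt_of_bricks` deduces `FamilyStmt`; together with `TopWiring84.s52_of_family` and the
Eichler-Shimura relation `RelQbar` this is the frozen statement S52.
-/
import Mathlib
import Fermat.Agent.S52.TopWiring84
import Fermat.Agent.S52.Model.ModelClose74
import Fermat.Agent.S52.Model.TorsTransport74
import Fermat.Agent.S52.C42.Psi3J1728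

set_option autoImplicit false

open WeierstrassCurve

namespace Fermat.Agent.S52.Assembly51

open Fermat.Agent.S52.TopWiring84 Fermat.Agent.S52.Model.ModelClose74
open Fermat.Agent.S52.Model.TorsTransport74

local notation "Qb" => AlgebraicClosure ℚ
local notation "GQ" => (AlgebraicClosure ℚ ≃ₐ[ℚ] AlgebraicClosure ℚ)

/-- The invariants of the members of the family are `t`-close to those of `W`. -/
def FamClose (c4f c6f : WeierstrassCurve ℤ → ℤ → ℤ) : Prop :=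
  ∀ (W : WeierstrassCurve ℤ) (t : ℤ), t ∣ c4f W t - W.c₄ ∧ t ∣ c6f W t - W.c₆

/-- Brick (B): the members of the family have the same `5`-torsion Galois module. -/
def BrickB (c4f c6f : WeierstrassCurve ℤ → ℤ → ℤ) : Prop :=
  ∀ W : WeierstrassCurve ℤ, W.Δ ≠ 0 → ∀ t : ℤ, c4f W t ^ 3 - c6f W t ^ 2 ≠ 0 →
    ∃ ψ : TorsQ (shortCurve (W.c₄ : ℚ) (W.c₆ : ℚ)) 5 →+
        TorsQ (shortCurve ((c4f W t : ℤ) : ℚ) ((c6f W t : ℤ) : ℚ)) 5,
      Function.Surjective ψ ∧
        ∀ (σ : GQ) (x : TorsQ (shortCurve (W.c₄ : ℚ) (W.c₆ : ℚ)) 5), ψ (σ • x) = σ • ψ x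

/-- Brick (C): a residue class modulo a prime `ℓ` (outside any given finite set) on which the member
reduces to a curve with `j = 1728` modulo `ℓ`, `3` being a non-square modulo `ℓ`. -/
def BrickC (c4f c6f : WeierstrassCurve ℤ → ℤ → ℤ) : Prop :=
  ∀ W : WeierstrassCurve ℤ, W.Δ ≠ 0 → W.IsSemistableModel → W.ModRepIsIrreducible 5 →
    ∀ T₀ : Finset ℕ, ∃ ℓ : ℕ, ℓ.Prime ∧ ℓ ∉ T₀ ∧ ¬ IsSquare (3 : ZMod ℓ) ∧
      ∃ n : ℤ, ∀ t : ℤ, t ≡ n [ZMOD (ℓ : ℤ)] → (ℓ : ℤ) ∣ c6f W t ∧ ¬ (ℓ : ℤ) ∣ c4f W t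

/-- Brick (D): the far clause. -/
def BrickD (c4f c6f : WeierstrassCurve ℤ → ℤ → ℤ) : Prop :=
  ∀ W : WeierstrassCurve ℤ, W.Δ ≠ 0 → ∃ B : Finset ℕ, ∀ (t : ℤ) (q : ℕ), q.Prime → q ∉ B →
    (q : ℤ) ∣ c4f W t → (q : ℤ) ∣ c6f W t → False

/-- A prime not dividing a nonzero integer. -/
theorem exists_prime_not_dvd {D : ℤ} (hD : D ≠ 0) : ∃ q : ℕ, q.Prime ∧ ¬ (q : ℤ) ∣ D := by
  obtain ⟨q, hq1, hq⟩ := Nat.exists_infinite_primes (D.natAbs + 1)
  refine ⟨q, hq, fun hdvd => ?_⟩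
  have h1 : q ∣ D.natAbs := Int.natCast_dvd.mp hdvd
  have h2 : q ≤ D.natAbs := Nat.le_of_dvd (Int.natAbs_pos.mpr hD) h1
  omega

/-- Chinese remainder theorem in the shape needed below. -/
theorem exists_crt {K ℓ : ℕ} (hcop : Nat.Coprime K ℓ) (n : ℤ) :
    ∃ t : ℤ, (K : ℤ) ∣ t ∧ t ≡ n [ZMOD (ℓ : ℤ)] := by
  have hc : IsCoprime (K : ℤ) (ℓ : ℤ) := Nat.isCoprime_iff_coprime.mpr hcop
  obtain ⟨a, b, hab⟩ := hc
  refine ⟨n * (a * K), Dvd.intro_left (n * a) (by ring), ?_⟩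
  have e : n * (a * K) = n - n * b * ℓ := by linear_combination n * hab
  rw [e, Int.modEq_iff_dvd]
  exact ⟨n * b, by ring⟩

/-- **Assembly.**  The family statement from the four bricks. -/
theorem familyStmt_of_bricks (c4f c6f : WeierstrassCurve ℤ → ℤ → ℤ)
    (hcl : FamClose c4f c6f) (hB : BrickB c4f c6f) (hC : BrickC c4f c6f)
    (hD : BrickD c4f c6f) : FamilyStmt := by
  classical
  intro W hΔ hW h5 _
  obtain ⟨B, hfar⟩ := hD W hΔ
  obtain ⟨q₀, hq₀, hq₀Δ⟩ := exists_prime_not_dvd hΔ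
  -- the modulus
  set S : Finset ℕ := insert q₀ (B.filter Nat.Prime) with hS
  set Kn : ℕ := 1728 * ∏ q ∈ S, q with hKn
  have hprod0 : (∏ q ∈ S, q) ≠ 0 := by
    rw [Finset.prod_ne_zero_iff]
    intro q hq
    rcases Finset.mem_insert.mp hq with rfl | hq
    · exact hq₀.ne_zero
    · exact (Finset.mem_filter.mp hq).2.ne_zero
  have hKn0 : Kn ≠ 0 := Nat.mul_ne_zero (by norm_num) hprod0
  have hSdvd : ∀ q ∈ S, 1728 * (q : ℤ) ∣ (Kn : ℤ) := by
    intro q hq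
    have : 1728 * q ∣ Kn := Nat.mul_dvd_mul_left 1728 (Finset.dvd_prod_of_mem _ hq)
    exact_mod_cast this
  -- the auxiliary prime
  obtain ⟨ℓ, hℓ, hℓT, hsq, n, hn⟩ := hC W hΔ hW h5 (Kn.primeFactors ∪ {2, 3})
  have hℓK : ¬ ℓ ∣ Kn := fun h =>
    hℓT (Finset.mem_union_left _ (Nat.mem_primeFactors.mpr ⟨hℓ, h, hKn0⟩))
  have hℓ2 : ℓ ≠ 2 := fun h => hℓT (Finset.mem_union_right _ (by rw [h]; simp))
  have hℓ3 : ℓ ≠ 3 := fun h => hℓT (Finset.mem_union_right _ (by rw [h]; simp))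
  have hcop : Nat.Coprime Kn ℓ := (Nat.Coprime.symm ((Nat.Prime.coprime_iff_not_dvd hℓ).mpr hℓK))
  obtain ⟨t, hKt, htn⟩ := exists_crt hcop n
  obtain ⟨hℓ6, hℓ4⟩ := hn t htn
  -- the member
  have h4 : (Kn : ℤ) ∣ c4f W t - W.c₄ := hKt.trans (hcl W t).1
  have h6 : (Kn : ℤ) ∣ c6f W t - W.c₆ := hKt.trans (hcl W t).2
  have h1728 : (1728 : ℤ) ∣ (Kn : ℤ) := by
    have : 1728 ∣ Kn := Dvd.intro _ rfl
    exact_mod_cast this
  obtain ⟨W', hW'⟩ : ∃ W' : WeierstrassCurve ℤ, W' = closeModel W (c4f W t) (c6f W t) := ⟨_, rfl⟩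
  have h48 : (48 : ℤ) ∣ c4f W t - W.c₄ := Dvd.dvd.trans (by norm_num) (h1728.trans h4)
  have hc4 : W'.c₄ = c4f W t := by rw [hW']; exact closeModel_c₄ W _ h48
  have hc6 : W'.c₆ = c6f W t := by
    rw [hW']
    exact closeModel_c₆ W h48
      (dvd_add (Dvd.dvd.mul_left (h1728.trans h6) 2) (Dvd.dvd.mul_left (h1728.trans h4) _))
  have h4' : (Kn : ℤ) ∣ W'.c₄ - W.c₄ := by rw [hc4]; exact h4
  have h6' : (Kn : ℤ) ∣ W'.c₆ - W.c₆ := by rw [hc6]; exact h6
  have hΔ' : W'.Δ ≠ 0 :=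
    Δ_ne_zero_of_close W W' (hSdvd q₀ (Finset.mem_insert_self _ _)) h4' h6' hq₀Δ
  refine ⟨W', hΔ', ?_, ?_, ?_⟩
  · -- semistability
    refine isSemistableModel_of_close W W' hW h4' h6' (fun q hq hqK hqΔ hq4 => ?_)
    have hqB : q ∉ B := fun hqB =>
      hqK (hSdvd q (Finset.mem_insert_of_mem (Finset.mem_filter.mpr ⟨hqB, hq⟩)))
    have hq6 : (q : ℤ) ∣ W'.c₆ := by
      have hrel := W'.c_relation
      have h2 : (q : ℤ) ∣ W'.c₆ ^ 2 := by
        have e : W'.c₆ ^ 2 = W'.c₄ ^ 3 - 1728 * W'.Δ := by linear_combination hrel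
        rw [e]
        exact dvd_sub (dvd_pow hq4 (by norm_num)) (Dvd.dvd.mul_left hqΔ _)
      exact (Nat.prime_iff_prime_int.mp hq).dvd_of_dvd_pow h2
    rw [hc4] at hq4
    rw [hc6] at hq6
    exact hfar t q hq hqB hq4 hq6
  · -- irreducibility of the 3-torsion
    exact Fermat.Agent.S52.C42.Psi3J1728.modRepIsIrreducible_three W' hΔ' hℓ hℓ2 hℓ3
      (by rw [hc6]; exact hℓ6) (by rw [hc4]; exact hℓ4) hsq
  · -- the 5-torsion
    have hne : c4f W t ^ 3 - c6f W t ^ 2 ≠ 0 := by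
      have hrel := W'.c_relation
      rw [hc4, hc6] at hrel
      rw [← hrel]
      exact mul_ne_zero (by norm_num) hΔ'
    have hψ := hB W hΔ t hne
    rw [← hc4, ← hc6] at hψ
    obtain ⟨ψ, hsurj, hequiv⟩ := hψ
    exact exists_hom_of_short W W' 5 ψ hsurj hequiv

/-- **S52 from the bricks and the Eichler-Shimura relation on torsion**: the conclusion of the
frozen statement. -/
theorem s52_of_bricks
    (hrel : ∀ W : WeierstrassCurve ℤ, Fermat.Agent.ES.Q58.TraceCong20.RelQbar W)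
    (c4f c6f : WeierstrassCurve ℤ → ℤ → ℤ)
    (hcl : FamClose c4f c6f) (hB : BrickB c4f c6f) (hC : BrickC c4f c6f) (hD : BrickD c4f c6f)
    (W : WeierstrassCurve ℤ) (hΔ : W.Δ ≠ 0) (hW : W.IsSemistableModel)
    (h5 : W.ModRepIsIrreducible 5) :
    ∃ W' : WeierstrassCurve ℤ, W'.Δ ≠ 0 ∧ W'.IsSemistableModel ∧ W'.ModRepIsIrreducible 3 ∧
      ∀ ℓ : ℕ, ℓ.Prime → W.IsGoodPrimeFor ℓ → W'.IsGoodPrimeFor ℓ → ℓ ≠ 5 →
        (5 : ℤ) ∣ (W'.apOfModel ℓ - W.apOfModel ℓ) :=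
  s52_of_family hrel (familyStmt_of_bricks c4f c6f hcl hB hC hD) W hΔ hW h5

end Fermat.Agent.S52.Assembly51
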