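/-
S52 (the 3-5 switch): ROUTE-AGNOSTIC assembly of `TopWiring84.FamilyStmt` (helper62), a variant of
`Assembly51.familyStmt_of_bricks` in which brick (C) is taken in the weak common form

  `BrickCH` : for every nonzero modulus `K₀` there is `t ≡ 0 mod K₀` such that every integral model
              with nonzero discriminant and invariants `(c₄(t), c₆(t))` has irreducible `3`-torsion.

Both routes deliver `BrickCH`:
* the primary route (`Assembly51.BrickC`: `j = 1728` fibre modulo an auxiliary prime) via the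
  Chinese remainder theorem and `Psi3J1728.modRepIsIrreducible_three` : `brickCH_of_brickC`;
* the Hilbert-irreducibility route (`KleinHIT62`) with NO Galois-theoretic input:
  `brickCH_of_klein`.
-/
import Mathlib
import Fermat.Agent.S52.Assembly51
import Fermat.Agent.S52.C.KleinHIT62

set_option autoImplicit false

open WeierstrassCurve

namespace Fermat.Agent.S52.AssemblyHIT62

open Fermat.Agent.S52.TopWiring84 Fermat.Agent.S52.Model.ModelClose74
open Fermat.Agent.S52.Model.TorsTransport74 Fermat.Agent.S52.Assembly51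

local notation "Qb" => AlgebraicClosure ℚ
local notation "GQ" => (AlgebraicClosure ℚ ≃ₐ[ℚ] AlgebraicClosure ℚ)

/-- Brick (C), route-agnostic form. -/
def BrickCH (c4f c6f : WeierstrassCurve ℤ → ℤ → ℤ) : Prop :=
  ∀ W : WeierstrassCurve ℤ, W.Δ ≠ 0 → W.IsSemistableModel → W.ModRepIsIrreducible 5 →
    ∀ K₀ : ℤ, K₀ ≠ 0 → ∃ t : ℤ, K₀ ∣ t ∧
      ∀ W' : WeierstrassCurve ℤ, W'.Δ ≠ 0 → W'.c₄ = c4f W t → W'.c₆ = c6f W t →
        W'.ModRepIsIrreducible 3

/-- The primary route (`j = 1728` fibre modulo an auxiliary prime) gives `BrickCH`. -/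
theorem brickCH_of_brickC (c4f c6f : WeierstrassCurve ℤ → ℤ → ℤ) (hC : BrickC c4f c6f) :
    BrickCH c4f c6f := by
  classical
  intro W hΔ hW h5 K₀ hK₀
  set Kn : ℕ := K₀.natAbs with hKn
  have hKn0 : Kn ≠ 0 := Int.natAbs_ne_zero.mpr hK₀
  obtain ⟨ℓ, hℓ, hℓT, hsq, n, hn⟩ := hC W hΔ hW h5 (Kn.primeFactors ∪ {2, 3})
  have hℓK : ¬ ℓ ∣ Kn := fun h =>
    hℓT (Finset.mem_union_left _ (Nat.mem_primeFactors.mpr ⟨hℓ, h, hKn0⟩))
  have hℓ2 : ℓ ≠ 2 := fun h => hℓT (Finset.mem_union_right _ (by rw [h]; simp))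
  have hℓ3 : ℓ ≠ 3 := fun h => hℓT (Finset.mem_union_right _ (by rw [h]; simp))
  have hcop : Nat.Coprime Kn ℓ := (Nat.Coprime.symm ((Nat.Prime.coprime_iff_not_dvd hℓ).mpr hℓK))
  obtain ⟨t, hKt, htn⟩ := exists_crt hcop n
  obtain ⟨hℓ6, hℓ4⟩ := hn t htn
  refine ⟨t, ?_, ?_⟩
  · have : K₀ ∣ (Kn : ℤ) := by rw [hKn]; exact Int.dvd_natAbs.mpr (dvd_refl _)
    exact this.trans hKt
  · intro W' hΔ' hc4 hc6
    exact Fermat.Agent.S52.C42.Psi3J1728.modRepIsIrreducible_three W' hΔ' hℓ hℓ2 hℓ3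
      (by rw [hc6]; exact hℓ6) (by rw [hc4]; exact hℓ4) hsq

/-- **Assembly, route-agnostic form.**  The family statement from the four bricks. -/
theorem familyStmt_of_bricksH (c4f c6f : WeierstrassCurve ℤ → ℤ → ℤ)
    (hcl : FamClose c4f c6f) (hB : BrickB c4f c6f) (hC : BrickCH c4f c6f)
    (hD : BrickD c4f c6f) : FamilyStmt := by
  classical
  intro W hΔ hW h5 _
  obtain ⟨B, hfar⟩ := hD W hΔ
  obtain ⟨q₀, hq₀, hq₀Δ⟩ := exists_prime_not_dvd hΔ
  -- the modulus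
  set S : Finset ℕ := insert q₀ (B.filter Nat.Prime) with hS
  set Kn : ℕ := 1728 * ∏ q ∈ S, q with hKn
  have hprod0 : (∏ q ∈ S, q) ≠ 0 := by
    rw [Finset.prod_ne_zero_iff]
    intro q hq
    rcases Finset.mem_insert.mp hq with rfl | hq
    · exact hq₀.ne_zero
    · exact (Finset.mem_filter.mp hq).2.ne_zero
  have hKn0 : Kn ≠ 0 := Nat.mul_ne_zero (by norm_num) hprod0
  have hSdvd : ∀ q ∈ S, 1728 * (q : ℤ) ∣ (Kn : ℤ) := by
    intro q hq
    have : 1728 * q ∣ Kn := Nat.mul_dvd_mul_left 1728 (Finset.dvd_prod_of_mem _ hq)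
    exact_mod_cast this
  -- the member
  obtain ⟨t, hKt, hirr⟩ := hC W hΔ hW h5 (Kn : ℤ) (by exact_mod_cast hKn0)
  have h4 : (Kn : ℤ) ∣ c4f W t - W.c₄ := hKt.trans (hcl W t).1
  have h6 : (Kn : ℤ) ∣ c6f W t - W.c₆ := hKt.trans (hcl W t).2
  have h1728 : (1728 : ℤ) ∣ (Kn : ℤ) := by
    have : 1728 ∣ Kn := Dvd.intro _ rfl
    exact_mod_cast this
  obtain ⟨W', hW'⟩ : ∃ W' : WeierstrassCurve ℤ, W' = closeModel W (c4f W t) (c6f W t) := ⟨_, rfl⟩
  have h48 : (48 : ℤ) ∣ c4f W t - W.c₄ := Dvd.dvd.trans (by norm_num) (h1728.trans h4)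
  have hc4 : W'.c₄ = c4f W t := by rw [hW']; exact closeModel_c₄ W _ h48
  have hc6 : W'.c₆ = c6f W t := by
    rw [hW']
    exact closeModel_c₆ W h48
      (dvd_add (Dvd.dvd.mul_left (h1728.trans h6) 2) (Dvd.dvd.mul_left (h1728.trans h4) _))
  have h4' : (Kn : ℤ) ∣ W'.c₄ - W.c₄ := by rw [hc4]; exact h4
  have h6' : (Kn : ℤ) ∣ W'.c₆ - W.c₆ := by rw [hc6]; exact h6
  have hΔ' : W'.Δ ≠ 0 :=
    Δ_ne_zero_of_close W W' (hSdvd q₀ (Finset.mem_insert_self _ _)) h4' h6' hq₀Δ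
  refine ⟨W', hΔ', ?_, ?_, ?_⟩
  · -- semistability
    refine isSemistableModel_of_close W W' hW h4' h6' (fun q hq hqK hqΔ hq4 => ?_)
    have hqB : q ∉ B := fun hqB =>
      hqK (hSdvd q (Finset.mem_insert_of_mem (Finset.mem_filter.mpr ⟨hqB, hq⟩)))
    have hq6 : (q : ℤ) ∣ W'.c₆ := by
      have hrel := W'.c_relation
      have h2 : (q : ℤ) ∣ W'.c₆ ^ 2 := by
        have e : W'.c₆ ^ 2 = W'.c₄ ^ 3 - 1728 * W'.Δ := by linear_combination hrel
        rw [e]
        exact dvd_sub (dvd_pow hq4 (by norm_num)) (Dvd.dvd.mul_left hqΔ _)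
      exact (Nat.prime_iff_prime_int.mp hq).dvd_of_dvd_pow h2
    rw [hc4] at hq4
    rw [hc6] at hq6
    exact hfar t q hq hqB hq4 hq6
  · -- irreducibility of the 3-torsion
    exact hirr W' hΔ' hc4 hc6
  · -- the 5-torsion
    have hne : c4f W t ^ 3 - c6f W t ^ 2 ≠ 0 := by
      have hrel := W'.c_relation
      rw [hc4, hc6] at hrel
      rw [← hrel]
      exact mul_ne_zero (by norm_num) hΔ'
    have hψ := hB W hΔ t hne
    rw [← hc4, ← hc6] at hψ
    obtain ⟨ψ, hsurj, hequiv⟩ := hψ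
    exact exists_hom_of_short W W' 5 ψ hsurj hequiv

open Polynomial in
/-- **Brick (C) by Hilbert irreducibility.**  If the family is polynomial in `t` (`c4p W`,
`c6p W : ℤ[X]`) and, for each `W` with `Δ ≠ 0`, its image over some field `K` of characteristic
zero is `(-kH, -kT)` along a line `p₀ + t q₀` with `p₀, q₀` independent (Klein's forms in the
normalisation of `KleinLine49`), then `BrickCH` holds -- with no Galois-theoretic input. -/
theorem brickCH_of_klein (c4f c6f : WeierstrassCurve ℤ → ℤ → ℤ)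
    (c4p c6p : WeierstrassCurve ℤ → ℤ[X])
    (h4 : ∀ W t, c4f W t = (c4p W).eval t) (h6 : ∀ W t, c6f W t = (c6p W).eval t)
    (hline : ∀ W : WeierstrassCurve ℤ, W.Δ ≠ 0 →
      ∃ (K : Type) (_ : Field K) (_ : CharZero K) (u0 v0 a b : K), u0 * b - v0 * a ≠ 0 ∧
        (c4p W).map (Int.castRingHom K) =
          -Fermat.Agent.S52.CGlue.KleinLine49.kH
            (Fermat.Agent.S52.CGlue.KleinLine49.lineU u0 a)
            (Fermat.Agent.S52.CGlue.KleinLine49.lineV v0 b) ∧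
        (c6p W).map (Int.castRingHom K) =
          -Fermat.Agent.S52.CGlue.KleinLine49.kT
            (Fermat.Agent.S52.CGlue.KleinLine49.lineU u0 a)
            (Fermat.Agent.S52.CGlue.KleinLine49.lineV v0 b)) :
    BrickCH c4f c6f := by
  intro W hΔ _ _ K₀ hK₀
  obtain ⟨K, _, _, u0, v0, a, b, hδ, hH, hT⟩ := hline W hΔ
  obtain ⟨k, -, hk, -, hirr⟩ :=
    Fermat.Agent.S52.C.KleinHIT62.exists_int_irreducible_three_of_line u0 v0 a b hδ
      (c4p W) (c6p W) hH hT 0 K₀ hK₀ 0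
  refine ⟨k, ?_, ?_⟩
  · have := Int.modEq_iff_dvd.mp hk.symm
    simpa using this
  · intro W' _ hc4 hc6
    exact hirr W' (by rw [hc4, h4]) (by rw [hc6, h6])

/-- **S52 from the bricks (route-agnostic) and the Eichler-Shimura relation on torsion**: the
conclusion of the frozen statement. -/
theorem s52_of_bricksH
    (hrel : ∀ W : WeierstrassCurve ℤ, Fermat.Agent.ES.Q58.TraceCong20.RelQbar W)
    (c4f c6f : WeierstrassCurve ℤ → ℤ → ℤ)
    (hcl : FamClose c4f c6f) (hB : BrickB c4f c6f) (hC : BrickCH c4f c6f) (hD : BrickD c4f c6f)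
    (W : WeierstrassCurve ℤ) (hΔ : W.Δ ≠ 0) (hW : W.IsSemistableModel)
    (h5 : W.ModRepIsIrreducible 5) :
    ∃ W' : WeierstrassCurve ℤ, W'.Δ ≠ 0 ∧ W'.IsSemistableModel ∧ W'.ModRepIsIrreducible 3 ∧
      ∀ ℓ : ℕ, ℓ.Prime → W.IsGoodPrimeFor ℓ → W'.IsGoodPrimeFor ℓ → ℓ ≠ 5 →
        (5 : ℤ) ∣ (W'.apOfModel ℓ - W.apOfModel ℓ) :=
  s52_of_family hrel (familyStmt_of_bricksH c4f c6f hcl hB hC hD) W hΔ hW h5

end Fermat.Agent.S52.AssemblyHIT62
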