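/-
S52 (3-5 switch), block B1 (helper80): the congruence lemma.

Two integral Weierstrass curves `W`, `W'` whose `5`-torsion over `ℚ̄` is linked by an injective,
Galois-equivariant additive map, and which both satisfy the Eichler–Shimura relation
`σ² − a_ℓ σ + ℓ = 0` on `5`-torsion for Frobenius elements at `ℓ`, have `a_ℓ(W') ≡ a_ℓ(W) (mod 5)`.

No determinant / Weil pairing is needed: subtracting the two relations gives
`(a_ℓ(W') − a_ℓ(W)) • (σ • Q') = 0` for a point `Q'` of exact order `5`.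
-/
import Mathlib
import Fermat.Prelude.Def_FLTPrelim_Modularity
import Fermat.Prelude.Def_FLTPrelim_GaloisRep
import Fermat.Prelude.Def_EllipticCurve_FrobeniusTrace
import Fermat.Prelude.Def_FLTPrelim_Ramification
import Fermat.Agent.DivPoly.A1Final
import Fermat.Agent.Lib.FrobeniusExists

set_option autoImplicit false

open WeierstrassCurve WeierstrassCurve.Affine WeierstrassCurve.Affine.Point

namespace Fermat.Agent.S52.Cong

local notation "Qb" => AlgebraicClosure ℚ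
local notation "GQ" => (AlgebraicClosure ℚ ≃ₐ[ℚ] AlgebraicClosure ℚ)

/-- The Eichler–Shimura relation at the prime `ℓ` on the `m`-torsion of the generic fibre of `W`. -/
def RelAt (W : WeierstrassCurve ℤ) (m ℓ : ℕ) : Prop :=
  ∀ (P : ValuationSubring Qb) (σ : GQ), P.LiesOverPrime ℓ → P.IsFrobeniusAt σ ℓ →
    ∀ Q : ((W.map (Int.castRingHom ℚ))⁄Qb).Point, m • Q = 0 →
      σ • σ • Q - W.apOfModel ℓ • (σ • Q) + ℓ • Q = 0

/-- The `m`-torsion of the generic fibre of `W` over `ℚ̄`, as in the frozen statements. -/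
noncomputable abbrev Tors (W : WeierstrassCurve ℤ) (m : ℕ) :=
  Submodule.torsionBy ℤ ((W.map (Int.castRingHom ℚ))⁄Qb).Point (m : ℤ)

theorem baseChange_Δ_ne_zero {W : WeierstrassCurve ℤ} (hΔ : W.Δ ≠ 0) :
    ((W.map (Int.castRingHom ℚ))⁄Qb).Δ ≠ 0 := by
  intro h
  have h1 : ((W.map (Int.castRingHom ℚ)).map (algebraMap ℚ Qb)).Δ = 0 := h
  rw [WeierstrassCurve.map_Δ, WeierstrassCurve.map_Δ] at h1
  have h2 := (map_eq_zero_iff _ (algebraMap ℚ Qb).injective).mp h1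
  exact hΔ (by simpa using h2)

theorem coe_smul_tors {W : WeierstrassCurve ℤ} {m : ℕ} (g : GQ) (v : Tors W m) :
    ((g • v : Tors W m) : ((W.map (Int.castRingHom ℚ))⁄Qb).Point) =
      g • (v : ((W.map (Int.castRingHom ℚ))⁄Qb).Point) := rfl

theorem nsmul_coe_tors {W : WeierstrassCurve ℤ} {m : ℕ} (v : Tors W m) :
    m • (v : ((W.map (Int.castRingHom ℚ))⁄Qb).Point) = 0 := by
  have := v.2
  rw [Submodule.mem_torsionBy_iff] at this
  rwa [Nat.cast_smul_eq_nsmul] at this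

/-- The relation, inside the torsion module. -/
theorem rel_tors {W : WeierstrassCurve ℤ} {m ℓ : ℕ} (hrel : RelAt W m ℓ)
    {P : ValuationSubring Qb} {σ : GQ} (hP : P.LiesOverPrime ℓ) (hσ : P.IsFrobeniusAt σ ℓ)
    (v : Tors W m) : σ • σ • v - W.apOfModel ℓ • (σ • v) + ℓ • v = 0 := by
  apply Subtype.ext
  have := hrel P σ hP hσ v (nsmul_coe_tors v)
  simpa [coe_smul_tors] using this

/-- **The congruence lemma** (for a prime `p` of torsion). -/
theorem dvd_sub_of_equivariant {W W' : WeierstrassCurve ℤ} (hΔ : W.Δ ≠ 0) {p : ℕ} (hp : p.Prime)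
    (hp2 : p ≠ 2) {ℓ : ℕ} (hℓ : ℓ.Prime) (hrel : RelAt W p ℓ) (hrel' : RelAt W' p ℓ)
    (e : Tors W p →+ Tors W' p) (hinj : Function.Injective e)
    (he : ∀ (σ : GQ) (x : Tors W p), e (σ • x) = σ • e x) :
    (p : ℤ) ∣ W'.apOfModel ℓ - W.apOfModel ℓ := by
  classical
  obtain ⟨A, σ, hA, hσ⟩ := Fermat.Agent.Lib.exists_isFrobeniusAt ℓ hℓ
  have hodd : Odd p := hp.odd_of_ne_two hp2
  have h2 : 2 < p := by
    have := hp.two_le
    omega
  have hpF : ((p : ℕ) : Qb) ≠ 0 := Nat.cast_ne_zero.mpr hp.ne_zero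
  have hnt : Nontrivial (Tors W p) :=
    Fermat.Agent.DivPoly.A1Final.nontrivial_torsionBy
      (W := ((W.map (Int.castRingHom ℚ))⁄Qb)) hodd h2 hpF (baseChange_Δ_ne_zero hΔ)
  obtain ⟨x, hx⟩ := exists_ne (0 : Tors W p)
  -- the two relations
  have r1 := rel_tors hrel hA hσ x
  have r2 := rel_tors hrel' hA hσ (e x)
  have r1' : σ • σ • e x - W.apOfModel ℓ • (σ • e x) + ℓ • e x = 0 := by
    have := congrArg e r1
    simpa [map_sub, map_add, map_zsmul, map_nsmul, he] using this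
  have hdiff : (W'.apOfModel ℓ - W.apOfModel ℓ) • (σ • e x) = 0 := by
    rw [sub_smul]
    have : W'.apOfModel ℓ • (σ • e x) - W.apOfModel ℓ • (σ • e x)
        = (σ • σ • e x - W.apOfModel ℓ • (σ • e x) + ℓ • e x)
          - (σ • σ • e x - W'.apOfModel ℓ • (σ • e x) + ℓ • e x) := by abel
    rw [this, r1', r2, sub_zero]
  -- `σ • e x` is a nonzero element killed by `p`
  have hy : σ • e x ≠ 0 := by
    intro h0
    have h1 : e x = 0 := by
      have := congrArg (fun z => σ⁻¹ • z) h0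
      simpa using this
    exact hx (hinj (h1.trans (map_zero e).symm))
  have hpy : (p : ℤ) • (σ • e x) = 0 := by
    apply Subtype.ext
    have := (σ • e x).2
    rw [Submodule.mem_torsionBy_iff] at this
    exact this
  have : Fact p.Prime := ⟨hp⟩
  have hord : addOrderOf (σ • e x) = p := by
    apply addOrderOf_eq_prime
    · rw [← Nat.cast_smul_eq_nsmul ℤ]
      exact hpy
    · exact hy
  rw [← hord]
  exact (addOrderOf_dvd_iff_zsmul_eq_zero).mpr hdiff

/-- Curves with the same reduction modulo `ℓ` have the same `a_ℓ`. -/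
theorem apOfModel_eq_of_reductionMod_eq {W W' : WeierstrassCurve ℤ} {ℓ : ℕ}
    (h : W'.reductionMod ℓ = W.reductionMod ℓ) : W'.apOfModel ℓ = W.apOfModel ℓ := by
  unfold WeierstrassCurve.apOfModel
  rw [h]

/-- Coefficientwise congruent curves have the same reduction. -/
theorem reductionMod_eq_of_dvd {W W' : WeierstrassCurve ℤ} {ℓ : ℕ}
    (h1 : (ℓ : ℤ) ∣ W'.a₁ - W.a₁) (h2 : (ℓ : ℤ) ∣ W'.a₂ - W.a₂) (h3 : (ℓ : ℤ) ∣ W'.a₃ - W.a₃)
    (h4 : (ℓ : ℤ) ∣ W'.a₄ - W.a₄) (h6 : (ℓ : ℤ) ∣ W'.a₆ - W.a₆) :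
    W'.reductionMod ℓ = W.reductionMod ℓ := by
  have key : ∀ x y : ℤ, (ℓ : ℤ) ∣ x - y → ((x : ℤ) : ZMod ℓ) = ((y : ℤ) : ZMod ℓ) := by
    intro x y hxy
    have := (ZMod.intCast_zmod_eq_zero_iff_dvd (x - y) ℓ).mpr hxy
    rw [Int.cast_sub, sub_eq_zero] at this
    exact this
  unfold WeierstrassCurve.reductionMod
  ext
  · exact key _ _ h1
  · exact key _ _ h2
  · exact key _ _ h3
  · exact key _ _ h4
  · exact key _ _ h6

theorem apOfModel_eq_of_dvd {W W' : WeierstrassCurve ℤ} {ℓ : ℕ}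
    (h1 : (ℓ : ℤ) ∣ W'.a₁ - W.a₁) (h2 : (ℓ : ℤ) ∣ W'.a₂ - W.a₂) (h3 : (ℓ : ℤ) ∣ W'.a₃ - W.a₃)
    (h4 : (ℓ : ℤ) ∣ W'.a₄ - W.a₄) (h6 : (ℓ : ℤ) ∣ W'.a₆ - W.a₆) :
    W'.apOfModel ℓ = W.apOfModel ℓ :=
  apOfModel_eq_of_reductionMod_eq (reductionMod_eq_of_dvd h1 h2 h3 h4 h6)

end Fermat.Agent.S52.Cong
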