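/-
S52 support (helper2): point count of a Weierstrass curve with `c₆ = 0` (`j = 1728`) over `ZMod ℓ`,
`ℓ ≡ 3 mod 4`, `ℓ ≥ 5`: exactly `ℓ + 1` points, i.e. trace of Frobenius `0`, whatever the twist.

Elementary proof: complete the square, `#{(x,y)} = ∑_x (1 + χ(g x))` with
`g = 4x³ + b₂x² + 2b₄x + b₆`; after the shift `x = x' - b₂/12` the cubic becomes
`4x'³ - (c₄/12) x' - c₆/216`, an odd function when `c₆ = 0`, and `χ(-1) = -1`.
-/
import Mathlib
import Fermat.Prelude.Def_FLTPrelim_Modularity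

set_option autoImplicit false

open WeierstrassCurve

namespace Fermat.Agent.S52.CountJ1728_2

variable {ℓ : ℕ} [Fact ℓ.Prime]

/-- the right hand side cubic after completing the square. -/
def gpoly (W : WeierstrassCurve (ZMod ℓ)) (x : ZMod ℓ) : ZMod ℓ :=
  4 * x ^ 3 + W.b₂ * x ^ 2 + 2 * W.b₄ * x + W.b₆

theorem ringChar_ne_two (h5 : 5 ≤ ℓ) : ringChar (ZMod ℓ) ≠ 2 := by
  rw [ZMod.ringChar_zmod_n]; omega

theorem two_ne_zero' (h5 : 5 ≤ ℓ) : (2 : ZMod ℓ) ≠ 0 := by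
  intro h
  have : ((2 : ℕ) : ZMod ℓ) = 0 := by exact_mod_cast h
  rw [ZMod.natCast_eq_zero_iff] at this
  have := Nat.le_of_dvd (by norm_num) this
  omega

theorem three_ne_zero' (h5 : 5 ≤ ℓ) : (3 : ZMod ℓ) ≠ 0 := by
  intro h
  have : ((3 : ℕ) : ZMod ℓ) = 0 := by exact_mod_cast h
  rw [ZMod.natCast_eq_zero_iff] at this
  have := Nat.le_of_dvd (by norm_num) this
  omega

/-- number of `y` with `y² + B y = C` is `1 + χ(B² + 4C)`. -/
theorem card_quadratic (h5 : 5 ≤ ℓ) (B C : ZMod ℓ) :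
    (Nat.card {y : ZMod ℓ // y ^ 2 + B * y = C} : ℤ) = quadraticChar (ZMod ℓ) (B ^ 2 + 4 * C) + 1 := by
  classical
  have h2 := two_ne_zero' (ℓ := ℓ) h5
  rw [← quadraticChar_card_sqrts (ringChar_ne_two h5)]
  norm_cast
  rw [← Nat.card_eq_card_toFinset]
  refine Nat.card_congr ?_
  refine
    { toFun := fun y => ⟨2 * y.1 + B, ?_⟩
      invFun := fun z => ⟨(z.1 - B) / 2, ?_⟩
      left_inv := ?_
      right_inv := ?_ }
  · have := y.2
    show (2 * y.1 + B) ^ 2 = B ^ 2 + 4 * C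
    linear_combination 4 * this
  · have hz : z.1 ^ 2 = B ^ 2 + 4 * C := z.2
    field_simp
    linear_combination hz
  · intro y
    apply Subtype.ext
    simp only
    field_simp
    ring
  · intro z
    apply Subtype.ext
    simp only
    field_simp
    ring


/-- `χ(-1) = -1` for `ℓ ≡ 3 mod 4`. -/
theorem quadraticChar_neg_one_eq (h5 : 5 ≤ ℓ) (h4 : ℓ % 4 = 3) :
    quadraticChar (ZMod ℓ) (-1) = -1 := by
  classical
  rw [quadraticChar_neg_one (ringChar_ne_two h5), ZMod.card]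
  exact ZMod.χ₄_nat_three_mod_four h4

/-- the character sum of an odd function vanishes when `χ(-1) = -1`. -/
theorem sum_char_odd (h5 : 5 ≤ ℓ) (h4 : ℓ % 4 = 3) (h : ZMod ℓ → ZMod ℓ)
    (hodd : ∀ x, h (-x) = - h x) :
    ∑ x : ZMod ℓ, quadraticChar (ZMod ℓ) (h x) = 0 := by
  have h1 : ∑ x : ZMod ℓ, quadraticChar (ZMod ℓ) (h x) =
      ∑ x : ZMod ℓ, quadraticChar (ZMod ℓ) (h (-x)) :=
    (Equiv.sum_comp (Equiv.neg (ZMod ℓ)) (fun x => quadraticChar (ZMod ℓ) (h x))).symm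
  have h2 : ∑ x : ZMod ℓ, quadraticChar (ZMod ℓ) (h (-x)) =
      - ∑ x : ZMod ℓ, quadraticChar (ZMod ℓ) (h x) := by
    rw [← Finset.sum_neg_distrib]
    refine Finset.sum_congr rfl fun x _ => ?_
    rw [hodd x, neg_eq_neg_one_mul, map_mul, quadraticChar_neg_one_eq h5 h4]
    ring
  omega

/-- the shifted cubic. -/
theorem gpoly_shift (h5 : 5 ≤ ℓ) (W : WeierstrassCurve (ZMod ℓ)) (x : ZMod ℓ) :
    gpoly W (x - W.b₂ / 12) = 4 * x ^ 3 - W.c₄ / 12 * x - W.c₆ / 216 := by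
  have h2 := two_ne_zero' (ℓ := ℓ) h5
  have h3 := three_ne_zero' (ℓ := ℓ) h5
  have h12 : (12 : ZMod ℓ) ≠ 0 := by
    have : (12 : ZMod ℓ) = 2 * 2 * 3 := by norm_num
    rw [this]; exact mul_ne_zero (mul_ne_zero h2 h2) h3
  have h216 : (216 : ZMod ℓ) ≠ 0 := by
    have : (216 : ZMod ℓ) = 2 * 2 * 2 * 3 * 3 * 3 := by norm_num
    rw [this]
    exact mul_ne_zero (mul_ne_zero (mul_ne_zero (mul_ne_zero (mul_ne_zero h2 h2) h2) h3) h3) h3
  unfold gpoly
  rw [WeierstrassCurve.c₄, WeierstrassCurve.c₆]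
  field_simp
  ring

/-- the character sum of the cubic vanishes when `c₆ = 0`. -/
theorem sum_char_gpoly (h5 : 5 ≤ ℓ) (h4 : ℓ % 4 = 3) (W : WeierstrassCurve (ZMod ℓ))
    (hc₆ : W.c₆ = 0) :
    ∑ x : ZMod ℓ, quadraticChar (ZMod ℓ) (gpoly W x) = 0 := by
  have h1 : ∑ x : ZMod ℓ, quadraticChar (ZMod ℓ) (gpoly W x) =
      ∑ x : ZMod ℓ, quadraticChar (ZMod ℓ) (gpoly W (x - W.b₂ / 12)) :=
    (Equiv.sum_comp (Equiv.subRight (W.b₂ / 12)) (fun x => quadraticChar (ZMod ℓ) (gpoly W x))).symm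
  rw [h1]
  have h2 : ∀ x : ZMod ℓ, gpoly W (x - W.b₂ / 12) = 4 * x ^ 3 - W.c₄ / 12 * x := by
    intro x
    rw [gpoly_shift h5, hc₆]
    ring
  simp_rw [h2]
  exact sum_char_odd h5 h4 (fun x => 4 * x ^ 3 - W.c₄ / 12 * x) (fun x => by ring)


section Count

variable (W : WeierstrassCurve (ZMod ℓ))

/-- points are the point at infinity together with the nonsingular affine pairs. -/
def pointEquivOption :
    W.toAffine.Point ≃
      Option {p : ZMod ℓ × ZMod ℓ // W.toAffine.Nonsingular p.1 p.2} where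
  toFun
    | .zero => none
    | .some x y h => some ⟨(x, y), h⟩
  invFun
    | none => .zero
    | some p => .some p.1.1 p.1.2 p.2
  left_inv := by rintro (_ | ⟨x, y, h⟩) <;> rfl
  right_inv := by rintro (_ | ⟨⟨x, y⟩, h⟩) <;> rfl

/-- affine pairs on the curve, fibred over the `x`-coordinate. -/
def pairEquivSigma (hΔ : W.Δ ≠ 0) :
    {p : ZMod ℓ × ZMod ℓ // W.toAffine.Nonsingular p.1 p.2} ≃
      Σ x : ZMod ℓ, {y : ZMod ℓ // y ^ 2 + (W.a₁ * x + W.a₃) * y =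
        x ^ 3 + W.a₂ * x ^ 2 + W.a₄ * x + W.a₆} where
  toFun p := ⟨p.1.1, p.1.2, by
    have h := (WeierstrassCurve.Affine.equation_iff _ _).mp p.2.1
    linear_combination h⟩
  invFun q := ⟨(q.1, q.2.1), by
    rw [← WeierstrassCurve.Affine.equation_iff_nonsingular_of_Δ_ne_zero (W := W.toAffine) hΔ,
      WeierstrassCurve.Affine.equation_iff]
    have h := q.2.2
    linear_combination h⟩
  left_inv p := rfl
  right_inv q := rfl

theorem card_point (h5 : 5 ≤ ℓ) (h4 : ℓ % 4 = 3) (hΔ : W.Δ ≠ 0) (hc₆ : W.c₆ = 0) :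
    Nat.card W.toAffine.Point = ℓ + 1 := by
  classical
  rw [Nat.card_congr (pointEquivOption W), Nat.card_eq_fintype_card, Fintype.card_option,
    ← Nat.card_eq_fintype_card, Nat.card_congr (pairEquivSigma W hΔ), Nat.card_sigma]
  congr 1
  have key : ((∑ x : ZMod ℓ, Nat.card {y : ZMod ℓ // y ^ 2 + (W.a₁ * x + W.a₃) * y =
      x ^ 3 + W.a₂ * x ^ 2 + W.a₄ * x + W.a₆} : ℕ) : ℤ) = (ℓ : ℤ) := by
    push_cast
    have : ∀ x : ZMod ℓ, (Nat.card {y : ZMod ℓ // y ^ 2 + (W.a₁ * x + W.a₃) * y =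
        x ^ 3 + W.a₂ * x ^ 2 + W.a₄ * x + W.a₆} : ℤ) =
        quadraticChar (ZMod ℓ) (gpoly W x) + 1 := by
      intro x
      rw [card_quadratic h5]
      congr 2
      unfold gpoly
      rw [WeierstrassCurve.b₂, WeierstrassCurve.b₄, WeierstrassCurve.b₆]
      ring
    simp_rw [this]
    rw [Finset.sum_add_distrib, sum_char_gpoly h5 h4 W hc₆]
    simp
  exact_mod_cast key

/-- **`j = 1728`, `ℓ ≡ 3 mod 4`: trace of Frobenius zero.** -/
theorem traceOfFrobenius_eq_zero (h5 : 5 ≤ ℓ) (h4 : ℓ % 4 = 3) (hΔ : W.Δ ≠ 0) (hc₆ : W.c₆ = 0) :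
    W.traceOfFrobenius = 0 := by
  unfold WeierstrassCurve.traceOfFrobenius WeierstrassCurve.card
  rw [card_point W h5 h4 hΔ hc₆, Nat.card_zmod]
  push_cast
  ring

end Count

end Fermat.Agent.S52.CountJ1728_2
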