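/-
S52, step (C), brick (CFT3) (helper59): quadratic characters of `Gal(ℚ̄/ℚ)` unramified outside `3`.

Main results.
* `mem_inertiaSubgroupIn_of_forall_sub_mem`: an element of `Gal(ℚ̄/ℚ)` which acts trivially on the
  algebraic integers modulo the prime cut out by a valuation subring `V` of `ℚ̄` lies in the inertia
  group `V.inertiaSubgroupIn ℚ`.
* `exists_inertia_mem_coset`: let `H` be a closed normal subgroup of `Gal(ℚ̄/ℚ)` and `τ` an element
  which acts trivially modulo `V` on the `H`-invariant algebraic integers.  Then the coset `τ H`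
  contains an element of the inertia group at `V` (surjectivity of inertia groups in towers).
* `quadChar_eq_one_of_fixes_cubeRoots`: a character `χ : Gal(ℚ̄/ℚ) → ℤˣ` with open kernel which is
  trivial on all inertia groups at the primes `s ≠ 3` is trivial on `Gal(ℚ̄/ℚ(ζ₃))`.
-/
import Mathlib
import Fermat.Prelude.Def_FLTPrelim_Ramification
import Fermat.Agent.Lib.FrobeniusExists

set_option autoImplicit false

open scoped Pointwise
open Polynomial

namespace Fermat.Agent.S52.QuadUnram59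

open Fermat.Agent.Lib.FrobeniusExists

attribute [local instance] isGalois_Qbar isIntegral_Qbar instTopZbar

local instance : DiscreteTopology Zbar := ⟨rfl⟩

attribute [local instance] continuousSMul_Zbar isInvariant_Zbar

/-! ### The prime of the algebraic integers cut out by a valuation subring -/

section PrimeOf

variable (V : ValuationSubring Qbar)

theorem zbar_mem (b : Zbar) : (b : Qbar) ∈ V := mem_valuationSubring_of_isIntegral V b.2

/-- The inclusion of the algebraic integers in a valuation subring of `ℚ̄`. -/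
noncomputable def toV : Zbar →+* V :=
  (algebraMap Zbar Qbar).codRestrict V.toSubring (zbar_mem V)

/-- The prime ideal of the algebraic integers cut out by the maximal ideal of `V`. -/
noncomputable def primeOf : Ideal Zbar := Ideal.comap (toV V) (IsLocalRing.maximalIdeal V)

theorem mem_primeOf_iff (b : Zbar) : b ∈ primeOf V ↔ (b : Qbar) ∈ V.nonunits := by
  rw [primeOf, Ideal.mem_comap, ← ValuationSubring.coe_mem_nonunits_iff]
  rfl

instance primeOf_isPrime : (primeOf V).IsPrime := Ideal.comap_isPrime (toV V) _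

theorem smul_coe (σ : GQ) (b : Zbar) : ((σ • b : Zbar) : Qbar) = σ (b : Qbar) := rfl

/-- An automorphism acting trivially modulo `primeOf V` stabilises `primeOf V`. -/
theorem smul_primeOf_eq {σ : GQ} (hσ : ∀ b : Zbar, σ • b - b ∈ primeOf V) :
    σ • primeOf V = primeOf V := by
  ext b
  rw [Ideal.mem_pointwise_smul_iff_inv_smul_mem]
  constructor
  · intro h
    have h1 := hσ (σ⁻¹ • b)
    rw [smul_inv_smul] at h1
    have : b = (b - σ⁻¹ • b) + σ⁻¹ • b := by ring
    rw [this]
    exact (primeOf V).add_mem h1 h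
  · intro h
    have h1 := hσ (σ⁻¹ • b)
    rw [smul_inv_smul] at h1
    have : σ⁻¹ • b = b - (b - σ⁻¹ • b) := by ring
    rw [this]
    exact (primeOf V).sub_mem h h1

end PrimeOf

/-! ### From the prime of `Zbar` to the decomposition and inertia groups of `V` -/

section Inertia

variable (V : ValuationSubring Qbar) {s : ℕ} (hs : s.Prime) (hV : V.LiesOverPrime s)

include hs hV

/-- An automorphism stabilising `primeOf V` maps `V` into `V`. -/
theorem map_mem_of_smul_primeOf_eq {τ : GQ} (hτ : τ • primeOf V = primeOf V) {x : Qbar}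
    (hx : x ∈ V) : τ x ∈ V := by
  obtain ⟨b, c, hb, hc, hbV, hxb⟩ := exists_num_den V s hs hV hx
  let b' : Zbar := ⟨b, hb⟩
  let c' : Zbar := ⟨c, hc⟩
  have hb'Q : b' ∉ primeOf V := fun h => hbV ((mem_primeOf_iff V b').mp h)
  have hτb : τ • b' ∉ primeOf V := by
    intro h
    apply hb'Q
    rw [← hτ] at h
    exact Ideal.smul_mem_pointwise_smul_iff.mp h
  have hτbV : τ b ∉ V.nonunits := fun h => hτb ((mem_primeOf_iff V (τ • b')).mpr h)
  have hτb_mem : τ b ∈ V := zbar_mem V (τ • b')
  have hτc_mem : τ c ∈ V := zbar_mem V (τ • c')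
  have hv1 : V.valuation (τ b) = 1 :=
    le_antisymm ((V.valuation_le_one_iff _).mpr hτb_mem) (not_lt.mp hτbV)
  have hτb0 : τ b ≠ 0 := by
    intro h0
    rw [h0, map_zero] at hv1
    exact zero_ne_one hv1
  have hinv : (τ b)⁻¹ ∈ V := by
    rw [← V.valuation_le_one_iff, map_inv₀, hv1, inv_one]
  have hx' : τ x = τ c * (τ b)⁻¹ := by
    rw [← hxb, map_mul]
    field_simp
  rw [hx']
  exact mul_mem hτc_mem hinv

/-- The stabiliser of `primeOf V` is contained in the decomposition group of `V`. -/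
theorem mem_decompositionSubgroup_of_smul_primeOf_eq {σ : GQ}
    (hσ : σ • primeOf V = primeOf V) : σ ∈ V.decompositionSubgroup ℚ := by
  have hσ' : σ⁻¹ • primeOf V = primeOf V := by
    ext b
    rw [Ideal.mem_pointwise_smul_iff_inv_smul_mem, inv_inv]
    constructor
    · intro h
      have h2 : σ • b ∈ σ • primeOf V := by rw [hσ]; exact h
      exact Ideal.smul_mem_pointwise_smul_iff.mp h2
    · intro h
      have h2 : σ • b ∈ σ • primeOf V := Ideal.smul_mem_pointwise_smul_iff.mpr h
      rwa [hσ] at h2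
  rw [ValuationSubring.decompositionSubgroup, MulAction.mem_stabilizer_iff]
  apply SetLike.ext
  intro x
  rw [ValuationSubring.mem_pointwise_smul_iff_inv_smul_mem]
  constructor
  · intro h
    have := map_mem_of_smul_primeOf_eq V hs hV hσ h
    simpa using this
  · intro h
    exact map_mem_of_smul_primeOf_eq V hs hV hσ' h

/-- **Bridge**: an automorphism acting trivially on the algebraic integers modulo `primeOf V`
lies in the inertia group of `V`. -/
theorem mem_inertiaSubgroupIn_of_forall_sub_mem {σ : GQ}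
    (hσ : ∀ b : Zbar, σ • b - b ∈ primeOf V) : σ ∈ V.inertiaSubgroupIn ℚ := by
  have hstab := smul_primeOf_eq V hσ
  have hdec := mem_decompositionSubgroup_of_smul_primeOf_eq V hs hV hstab
  rw [ValuationSubring.inertiaSubgroupIn, Subgroup.mem_map]
  refine ⟨⟨σ, hdec⟩, ?_, rfl⟩
  rw [ValuationSubring.inertiaSubgroup, MonoidHom.mem_ker]
  ext xbar
  obtain ⟨x, rfl⟩ := IsLocalRing.residue_surjective xbar
  set g : V.decompositionSubgroup ℚ := ⟨σ, hdec⟩ with hg
  change g • (IsLocalRing.residue V x) = IsLocalRing.residue V x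
  rw [← IsLocalRing.ResidueField.residue_smul]
  obtain ⟨b, c, hb, hc, hbV, hxb⟩ := exists_num_den V s hs hV x.2
  let bV : V := ⟨b, zbar_mem V ⟨b, hb⟩⟩
  let cV : V := ⟨c, zbar_mem V ⟨c, hc⟩⟩
  have hxbV : x * bV = cV := Subtype.ext hxb
  have hres : ∀ (y : Qbar) (hy : IsIntegral ℤ y),
      IsLocalRing.residue V (g • (⟨y, zbar_mem V ⟨y, hy⟩⟩ : V)) =
        IsLocalRing.residue V (⟨y, zbar_mem V ⟨y, hy⟩⟩ : V) := by
    intro y hy
    rw [← sub_eq_zero, ← map_sub, IsLocalRing.residue_eq_zero_iff,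
      ← ValuationSubring.coe_mem_nonunits_iff]
    exact (mem_primeOf_iff V _).mp (hσ ⟨y, hy⟩)
  have hbne : IsLocalRing.residue V bV ≠ 0 := by
    rw [Ne, IsLocalRing.residue_eq_zero_iff, ← ValuationSubring.coe_mem_nonunits_iff]
    exact hbV
  have h1 : IsLocalRing.residue V (g • x) * IsLocalRing.residue V bV =
      IsLocalRing.residue V x * IsLocalRing.residue V bV := by
    calc IsLocalRing.residue V (g • x) * IsLocalRing.residue V bV
        = IsLocalRing.residue V (g • x) * IsLocalRing.residue V (g • bV) := by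
          rw [hres b hb]
      _ = IsLocalRing.residue V (g • cV) := by
          rw [← map_mul, ← smul_mul', hxbV]
      _ = IsLocalRing.residue V cV := hres c hc
      _ = IsLocalRing.residue V x * IsLocalRing.residue V bV := by
          rw [← map_mul, hxbV]
  exact mul_right_cancel₀ hbne h1

end Inertia

/-! ### Inertia groups surject in towers -/

section Tower

variable (H : Subgroup GQ)

/-- The `H`-invariant algebraic integers. -/
noncomputable abbrev fixedInts : Subalgebra ℤ Zbar := FixedPoints.subalgebra ℤ Zbar H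

instance smulComm_fixedInts : SMulCommClass H (fixedInts H) Zbar where
  smul_comm h a b := by
    change h • ((a : Zbar) * b) = (a : Zbar) * h • b
    rw [smul_mul', a.2 h]

instance isInvariant_fixedInts : Algebra.IsInvariant (fixedInts H) Zbar H where
  isInvariant b hb := ⟨⟨b, hb⟩, rfl⟩

theorem mem_under_fixedInts_iff (Q : Ideal Zbar) (a : fixedInts H) :
    a ∈ Q.under (fixedInts H) ↔ (a : Zbar) ∈ Q := Iff.rfl

variable (V : ValuationSubring Qbar) {s : ℕ} (hs : s.Prime) (hV : V.LiesOverPrime s)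

include hs hV

/-- **Inertia groups surject in towers.**  Let `H` be a closed normal subgroup of `Gal(ℚ̄/ℚ)` and
let `τ` act trivially, modulo the prime cut out by `V`, on the `H`-invariant algebraic integers.
Then the coset `τ H` meets the inertia group of `V`. -/
theorem exists_inertia_mem_coset [H.Normal] (hH : IsClosed (H : Set GQ)) (τ : GQ)
    (hτ : ∀ b : Zbar, (∀ h : H, h • b = b) → τ • b - b ∈ primeOf V) :
    ∃ σ ∈ V.inertiaSubgroupIn ℚ, τ⁻¹ * σ ∈ H := by
  have : CompactSpace H := isCompact_iff_compactSpace.mp hH.isCompact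
  set Q₀ : Ideal Zbar := primeOf V with hQ₀
  -- Step 1: `Q₀` and `τ • Q₀` have the same contraction to the `H`-invariants.
  have hunder : Q₀.under (fixedInts H) = (τ • Q₀).under (fixedInts H) := by
    ext a
    rw [mem_under_fixedInts_iff, mem_under_fixedInts_iff,
      Ideal.mem_pointwise_smul_iff_inv_smul_mem]
    have hfix : ∀ h : H, h • (τ⁻¹ • (a : Zbar)) = τ⁻¹ • (a : Zbar) := by
      intro h
      have hconj : τ * (h : GQ) * τ⁻¹ ∈ H := ‹H.Normal›.conj_mem _ h.2 τ
      have h1 := a.2 ⟨τ * (h : GQ) * τ⁻¹, hconj⟩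
      change (τ * (h : GQ) * τ⁻¹) • (a : Zbar) = (a : Zbar) at h1
      change (h : GQ) • (τ⁻¹ • (a : Zbar)) = τ⁻¹ • (a : Zbar)
      rw [mul_smul, mul_smul] at h1
      have h3 := congrArg (fun z : Zbar => τ⁻¹ • z) h1
      simp only [inv_smul_smul] at h3
      exact h3
    have h2 := hτ (τ⁻¹ • (a : Zbar)) hfix
    rw [smul_inv_smul] at h2
    constructor
    · intro h
      have : τ⁻¹ • (a : Zbar) = (a : Zbar) - ((a : Zbar) - τ⁻¹ • (a : Zbar)) := by ring
      rw [this]
      exact Q₀.sub_mem h h2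
    · intro h
      have : (a : Zbar) = ((a : Zbar) - τ⁻¹ • (a : Zbar)) + τ⁻¹ • (a : Zbar) := by ring
      rw [this]
      exact Q₀.add_mem h2 h
  -- Step 2: move `τ • Q₀` back to `Q₀` by an element of `H`.
  obtain ⟨h, hh⟩ := Algebra.IsInvariant.exists_smul_of_under_eq_of_profinite
    (A := fixedInts H) (B := Zbar) (G := H) Q₀ (τ • Q₀) hunder
  set σ₁ : GQ := (h : GQ)⁻¹ * τ with hσ₁
  have hσ₁Q : σ₁ • Q₀ = Q₀ := by
    rw [hσ₁, mul_smul, hh]
    exact inv_smul_smul (h : GQ) Q₀
  -- Step 3: `σ₁` acts trivially on the `H`-invariants modulo `Q₀`.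
  have hσ₁a : ∀ a : fixedInts H, σ₁ • (a : Zbar) - (a : Zbar) ∈ Q₀ := by
    intro a
    have hfix : ∀ h' : H, h' • (τ • (a : Zbar)) = τ • (a : Zbar) := by
      intro h'
      have hconj : τ⁻¹ * (h' : GQ) * τ⁻¹⁻¹ ∈ H := ‹H.Normal›.conj_mem _ h'.2 τ⁻¹
      have h1 := a.2 ⟨τ⁻¹ * (h' : GQ) * τ⁻¹⁻¹, hconj⟩
      change (τ⁻¹ * (h' : GQ) * τ⁻¹⁻¹) • (a : Zbar) = (a : Zbar) at h1
      change (h' : GQ) • (τ • (a : Zbar)) = τ • (a : Zbar)
      rw [inv_inv, mul_smul, mul_smul] at h1
      have h3 := congrArg (fun z : Zbar => τ • z) h1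
      simp only [smul_inv_smul] at h3
      exact h3
    have h1 : σ₁ • (a : Zbar) = τ • (a : Zbar) := by
      rw [hσ₁, mul_smul]
      have := hfix h⁻¹
      exact this
    rw [h1]
    exact hτ (a : Zbar) a.2
  -- Step 4: the automorphism of `Zbar ⧸ Q₀` induced by `σ₁`, as an automorphism over the
  -- residue field of the `H`-invariants.
  let ψ := Ideal.Quotient.stabilizerHom Q₀ (Q₀.under ℤ) GQ ⟨σ₁, hσ₁Q⟩
  have hψ : ∀ a : fixedInts H,
      ψ (Ideal.Quotient.mk Q₀ (a : Zbar)) = Ideal.Quotient.mk Q₀ (a : Zbar) := by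
    intro a
    rw [Ideal.Quotient.stabilizerHom_apply, Ideal.Quotient.eq]
    exact hσ₁a a
  let φ : (Zbar ⧸ Q₀) ≃ₐ[fixedInts H ⧸ Q₀.under (fixedInts H)] (Zbar ⧸ Q₀) :=
    AlgEquiv.ofRingEquiv (f := ψ.toRingEquiv) (by
      intro x
      obtain ⟨a, rfl⟩ := Ideal.Quotient.mk_surjective x
      rw [Ideal.Quotient.algebraMap_mk_of_liesOver]
      exact hψ a)
  obtain ⟨h', hh'⟩ := Ideal.Quotient.stabilizerHom_surjective_of_profinite (G := H)
    (Q₀.under (fixedInts H)) Q₀ φ
  -- Step 5: the quotient of `σ₁` by `h'` lies in the inertia group.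
  refine ⟨σ₁ * ((h' : H) : GQ)⁻¹, ?_, ?_⟩
  · apply mem_inertiaSubgroupIn_of_forall_sub_mem V hs hV
    intro b
    have h1 := DFunLike.congr_fun hh' (Ideal.Quotient.mk Q₀ (((h' : H) : GQ)⁻¹ • b))
    rw [Ideal.Quotient.stabilizerHom_apply] at h1
    have h2 : φ (Ideal.Quotient.mk Q₀ (((h' : H) : GQ)⁻¹ • b)) =
        Ideal.Quotient.mk Q₀ (σ₁ • (((h' : H) : GQ)⁻¹ • b)) :=
      Ideal.Quotient.stabilizerHom_apply Q₀ (Q₀.under ℤ) GQ ⟨σ₁, hσ₁Q⟩ _
    rw [h2] at h1
    have h3 : (h' : H) • (((h' : H) : GQ)⁻¹ • b) = b := smul_inv_smul ((h' : H) : GQ) b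
    have h4 : ((h' : MulAction.stabilizer H Q₀)) • (((h' : H) : GQ)⁻¹ • b) = b := h3
    rw [h4] at h1
    rw [mul_smul]
    exact Ideal.Quotient.eq.mp h1.symm
  · have h1 : τ⁻¹ * (σ₁ * ((h' : H) : GQ)⁻¹) =
        (τ⁻¹ * (h : GQ)⁻¹ * τ⁻¹⁻¹) * ((h' : H) : GQ)⁻¹ := by
      rw [hσ₁]; group
    rw [h1]
    exact H.mul_mem (‹H.Normal›.conj_mem _ (H.inv_mem h.2) τ⁻¹) (H.inv_mem (h' : H).2)

end Tower

end Fermat.Agent.S52.QuadUnram59
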