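/-
S52, step (C), brick (CFT3), part 2 (helper59): quadratic characters of `Gal(ℚ̄/ℚ)` which are
unramified outside `3` are trivial on `Gal(ℚ̄/ℚ(ζ₃))`.

Main results.
* `quadChar_eq_one_of_fixes_cubeRoots`: a character `χ : Gal(ℚ̄/ℚ) → ℤˣ` with open kernel which is
  trivial on all inertia groups at the primes `s ≠ 3` is trivial on every automorphism fixing the
  cube roots of unity.
* `smul_eq_of_fixes_cubeRoots`: the same statement for the sign action on a point `P` of an
  additive group with an action of `Gal(ℚ̄/ℚ)`.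
-/
import Mathlib
import Fermat.Prelude.Def_FLTPrelim_Ramification
import Fermat.Agent.Lib.FrobeniusExists
import Fermat.Agent.S52.QuadUnram59

set_option autoImplicit false

open scoped Pointwise
open Polynomial

namespace Fermat.Agent.S52.QuadChar59

open Fermat.Agent.Lib.FrobeniusExists Fermat.Agent.S52.QuadUnram59

attribute [local instance] isGalois_Qbar isIntegral_Qbar instTopZbar

local instance : DiscreteTopology Zbar := ⟨rfl⟩

attribute [local instance] continuousSMul_Zbar isInvariant_Zbar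

/-! ### Invariant algebraic integers are integers -/

theorem exists_int_of_invariant (b : Zbar) (hb : ∀ g : GQ, g • b = b) :
    ∃ m : ℤ, b = (m : Zbar) := by
  obtain ⟨m, hm⟩ := Algebra.IsInvariant.isInvariant (A := ℤ) (B := Zbar) (G := GQ) b hb
  exact ⟨m, by rw [← hm]; simp⟩

/-! ### The sign of a character and odd elements -/

section Odd

variable (χ : GQ →* ℤˣ)

/-- The sign `±1` of `χ g`, as an algebraic integer. -/
noncomputable def sgn (g : GQ) : Zbar := (((χ g : ℤˣ) : ℤ) : Zbar)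

theorem sgn_of_eq_one {g : GQ} (h : χ g = 1) : sgn χ g = 1 := by
  simp [sgn, h]

theorem sgn_of_eq_neg_one {g : GQ} (h : χ g = -1) : sgn χ g = -1 := by
  simp [sgn, h]

theorem sgn_mul_sgn (g : GQ) : sgn χ g * sgn χ g = 1 := by
  rcases Int.units_eq_one_or (χ g) with h | h
  · rw [sgn_of_eq_one χ h]; ring
  · rw [sgn_of_eq_neg_one χ h]; ring

/-- `y` is `χ`-odd: every `g` acts on `y` through the sign `χ g`. -/
def IsOdd (y : Zbar) : Prop := ∀ g : GQ, g • y = sgn χ g * y

variable {χ}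

theorem IsOdd.mul_invariant {y w : Zbar} (hy : IsOdd χ y) (hw : IsOdd χ w) (g : GQ) :
    g • (w * y) = w * y := by
  rw [smul_mul', hy g, hw g]
  calc sgn χ g * w * (sgn χ g * y) = (sgn χ g * sgn χ g) * (w * y) := by ring
    _ = w * y := by rw [sgn_mul_sgn, one_mul]

theorem IsOdd.exists_int_mul {y w : Zbar} (hy : IsOdd χ y) (hw : IsOdd χ w) :
    ∃ m : ℤ, w * y = (m : Zbar) :=
  exists_int_of_invariant _ (hy.mul_invariant hw)

variable {τ₀ : GQ} (hτ₀ : χ τ₀ = -1)

include hτ₀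

/-- The action of `Gal(ℚ̄/ℚ)` on an element fixed by the kernel of `χ`. -/
theorem smul_eq_of_fixed {b : Zbar} (hb : ∀ h : GQ, χ h = 1 → h • b = b) (g : GQ) :
    (χ g = 1 → g • b = b ∧ g • (τ₀ • b) = τ₀ • b) ∧
    (χ g = -1 → g • b = τ₀ • b ∧ g • (τ₀ • b) = b) := by
  constructor
  · intro hg
    refine ⟨hb g hg, ?_⟩
    have h1 : χ (τ₀⁻¹ * g * τ₀) = 1 := by
      rw [map_mul, map_mul, map_inv, hg, hτ₀]; decide
    have h2 := hb _ h1
    rw [mul_smul, mul_smul] at h2
    have h3 := congrArg (fun z : Zbar => τ₀ • z) h2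
    simpa only [smul_inv_smul] using h3
  · intro hg
    constructor
    · have h1 : χ (τ₀⁻¹ * g) = 1 := by
        rw [map_mul, map_inv, hg, hτ₀]; decide
      have h2 := hb _ h1
      rw [mul_smul] at h2
      have h3 := congrArg (fun z : Zbar => τ₀ • z) h2
      simpa only [smul_inv_smul] using h3
    · have h1 : χ (g * τ₀) = 1 := by
        rw [map_mul, hg, hτ₀]; decide
      have h2 := hb _ h1
      rwa [mul_smul] at h2

/-- The difference `τ₀ • b - b` of an element fixed by the kernel of `χ` is odd. -/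
theorem isOdd_sub_of_fixed {b : Zbar} (hb : ∀ h : GQ, χ h = 1 → h • b = b) :
    IsOdd χ (τ₀ • b - b) := by
  intro g
  have key := smul_eq_of_fixed hτ₀ hb g
  rcases Int.units_eq_one_or (χ g) with h | h
  · obtain ⟨h1, h2⟩ := key.1 h
    rw [smul_sub, h1, h2, sgn_of_eq_one χ h, one_mul]
  · obtain ⟨h1, h2⟩ := key.2 h
    rw [smul_sub, h1, h2, sgn_of_eq_neg_one χ h]; ring

/-- The sum `τ₀ • b + b` of an element fixed by the kernel of `χ` is an integer. -/
theorem exists_int_add_of_fixed {b : Zbar} (hb : ∀ h : GQ, χ h = 1 → h • b = b) :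
    ∃ T : ℤ, τ₀ • b + b = (T : Zbar) := by
  apply exists_int_of_invariant
  intro g
  have key := smul_eq_of_fixed hτ₀ hb g
  rcases Int.units_eq_one_or (χ g) with h | h
  · obtain ⟨h1, h2⟩ := key.1 h
    rw [smul_add, h1, h2]
  · obtain ⟨h1, h2⟩ := key.2 h
    rw [smul_add, h1, h2, add_comm]

/-- The product `τ₀ • b * b` of an element fixed by the kernel of `χ` is an integer. -/
theorem exists_int_mul_of_fixed {b : Zbar} (hb : ∀ h : GQ, χ h = 1 → h • b = b) :
    ∃ n : ℤ, τ₀ • b * b = (n : Zbar) := by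
  apply exists_int_of_invariant
  intro g
  have key := smul_eq_of_fixed hτ₀ hb g
  rcases Int.units_eq_one_or (χ g) with h | h
  · obtain ⟨h1, h2⟩ := key.1 h
    rw [smul_mul', h1, h2]
  · obtain ⟨h1, h2⟩ := key.2 h
    rw [smul_mul', h1, h2, mul_comm]

end Odd

/-! ### Existence of a nonzero odd element -/

section Exists

variable {χ : GQ →* ℤˣ}

theorem exists_isOdd (hopen : IsOpen (χ.ker : Set GQ)) {τ₀ : GQ} (hτ₀ : χ τ₀ = -1) :
    ∃ y : Zbar, y ≠ 0 ∧ IsOdd χ y := by
  have hclosed : IsClosed (χ.ker : Set GQ) := Subgroup.isClosed_of_isOpen _ hopen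
  let H : ClosedSubgroup GQ := ⟨χ.ker, hclosed⟩
  have hfix := InfiniteGalois.fixingSubgroup_fixedField (k := ℚ) (K := Qbar) H
  have hτ₀H : τ₀ ∉ (IntermediateField.fixedField (H : Subgroup GQ)).fixingSubgroup := by
    rw [hfix]
    change τ₀ ∉ χ.ker
    rw [MonoidHom.mem_ker, hτ₀]
    decide
  rw [IntermediateField.mem_fixingSubgroup_iff] at hτ₀H
  push Not at hτ₀H
  obtain ⟨z, hzH, hzτ⟩ := hτ₀H
  obtain ⟨n, hn0, hnz⟩ := (isAlgebraic_int_Qbar z).exists_integral_multiple
  let b₀ : Zbar := ⟨n • z, hnz⟩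
  have hb₀ : ∀ h : GQ, χ h = 1 → h • b₀ = b₀ := by
    intro h hh
    apply Subtype.ext
    change h (n • z) = n • z
    rw [map_zsmul]
    congr 1
    exact hzH ⟨h, MonoidHom.mem_ker.mpr hh⟩
  refine ⟨τ₀ • b₀ - b₀, ?_, isOdd_sub_of_fixed hτ₀ hb₀⟩
  intro h0
  apply hzτ
  have h1 : τ₀ • b₀ = b₀ := sub_eq_zero.mp h0
  have h2 : τ₀ (n • z) = n • z := congrArg Subtype.val h1
  rw [map_zsmul] at h2
  exact smul_right_injective Qbar hn0 h2

end Exists

/-! ### Reduction to a squarefree square -/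

section Squarefree

variable {χ : GQ →* ℤˣ}

theorem coe_sgn (g : GQ) : ((sgn χ g : Zbar) : Qbar) = (((χ g : ℤˣ) : ℤ) : Qbar) := by
  simp [sgn]

theorem exists_isOdd_squarefree {y : Zbar} (hy0 : y ≠ 0) (hy : IsOdd χ y) :
    ∃ (y₀ : Zbar) (d : ℤ), y₀ ≠ 0 ∧ IsOdd χ y₀ ∧ Squarefree d ∧ y₀ * y₀ = (d : Zbar) := by
  obtain ⟨m, hm⟩ := hy.exists_int_mul hy
  have hm0 : m ≠ 0 := by
    rintro rfl
    rw [Int.cast_zero, mul_self_eq_zero] at hm
    exact hy0 hm
  obtain ⟨a, b, hab, ha⟩ := Nat.sq_mul_squarefree m.natAbs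
  have hb0 : b ≠ 0 := by
    rintro rfl
    rw [zero_pow two_ne_zero, zero_mul] at hab
    exact hm0 (Int.natAbs_eq_zero.mp hab.symm)
  set d : ℤ := m.sign * a with hd
  have hmd : m = (b : ℤ) ^ 2 * d := by
    rw [hd]
    calc m = m.sign * (m.natAbs : ℤ) := (Int.sign_mul_natAbs m).symm
      _ = m.sign * ((b ^ 2 * a : ℕ) : ℤ) := by rw [hab]
      _ = (b : ℤ) ^ 2 * (m.sign * a) := by push_cast; ring
  have hbQ : (b : Qbar) ≠ 0 := Nat.cast_ne_zero.mpr hb0
  have hmQ : (y : Qbar) * (y : Qbar) = (m : Qbar) := by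
    have := congrArg (Subtype.val : Zbar → Qbar) hm
    simpa using this
  have hsq : ((y : Qbar) / b) * ((y : Qbar) / b) = (d : Qbar) := by
    rw [div_mul_div_comm, hmQ, hmd]
    push_cast
    field_simp
  have hint : IsIntegral ℤ ((y : Qbar) / b) := by
    apply IsIntegral.of_pow (n := 2) two_pos
    rw [pow_two, hsq]
    exact isIntegral_algebraMap (x := d)
  refine ⟨⟨(y : Qbar) / b, hint⟩, d, ?_, ?_, ?_, ?_⟩
  · intro h0
    have h1 : (y : Qbar) / b = 0 := congrArg Subtype.val h0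
    rw [div_eq_zero_iff] at h1
    rcases h1 with h1 | h1
    · exact hy0 (Subtype.ext h1)
    · exact hbQ h1
  · intro g
    apply Subtype.ext
    have h1 : ((g • y : Zbar) : Qbar) = (sgn χ g : Qbar) * (y : Qbar) := by
      rw [hy g]; rfl
    change g ((y : Qbar) / b) = (sgn χ g : Qbar) * ((y : Qbar) / b)
    rw [map_div₀, map_natCast, ← smul_coe, h1, mul_div_assoc]
  · rw [← Int.squarefree_natAbs, hd, Int.natAbs_mul, Int.natAbs_sign_of_ne_zero hm0, one_mul,
      Int.natAbs_natCast]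
    exact ha
  · apply Subtype.ext
    change ((y : Qbar) / b) * ((y : Qbar) / b) = ((d : Zbar) : Qbar)
    rw [hsq]
    simp

end Squarefree

/-! ### Ramification: where `τ₀` acts trivially on the invariants of the kernel -/

section Ramified

variable {χ : GQ →* ℤˣ} {τ₀ : GQ} (hτ₀ : χ τ₀ = -1)
  {y₀ : Zbar} (hy0 : y₀ ≠ 0) (hodd : IsOdd χ y₀) {d : ℤ} (hd : Squarefree d)
  (hyd : y₀ * y₀ = (d : Zbar))

include hτ₀ hy0 hodd hd hyd

/-- For `x` fixed by the kernel of `χ`, the difference `τ₀ • x - x` is an integer multiple of the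
odd element `y₀` with squarefree square. -/
theorem exists_int_sub_eq_mul {x : Zbar} (hx : ∀ h : GQ, χ h = 1 → h • x = x) :
    ∃ r : ℤ, τ₀ • x - x = (r : Zbar) * y₀ := by
  have hw : IsOdd χ (τ₀ • x - x) := isOdd_sub_of_fixed hτ₀ hx
  set w : Zbar := τ₀ • x - x with hw_def
  obtain ⟨R, hR⟩ := hodd.exists_int_mul hw
  obtain ⟨n', hn'⟩ := hw.exists_int_mul hw
  have h1 : ((R ^ 2 : ℤ) : Zbar) = ((n' * d : ℤ) : Zbar) := by
    push_cast
    rw [← hR, ← hn', ← hyd]
    ring
  have h2 : R ^ 2 = n' * d := Int.cast_injective h1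
  have h3 : d ∣ R := (hd.dvd_pow_iff_dvd two_ne_zero).mp ⟨n', by rw [h2]; ring⟩
  obtain ⟨r, rfl⟩ := h3
  refine ⟨r, ?_⟩
  apply mul_right_cancel₀ hy0
  rw [hR]
  push_cast
  rw [← hyd]
  ring

/-- `τ₀` acts trivially modulo a prime containing a prime divisor of `d`. -/
theorem sub_mem_of_dvd (Q : Ideal Zbar) [Q.IsPrime] {s : ℕ} (hsQ : (s : Zbar) ∈ Q)
    (hsd : (s : ℤ) ∣ d) {x : Zbar} (hx : ∀ h : GQ, χ h = 1 → h • x = x) : τ₀ • x - x ∈ Q := by
  obtain ⟨r, hr⟩ := exists_int_sub_eq_mul hτ₀ hy0 hodd hd hyd hx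
  have hdQ : (d : Zbar) ∈ Q := by
    obtain ⟨k, rfl⟩ := hsd
    push_cast
    exact Q.mul_mem_right _ hsQ
  have hy₀Q : y₀ ∈ Q := by
    rw [← hyd] at hdQ
    rcases Ideal.IsPrime.mem_or_mem ‹Q.IsPrime› hdQ with h | h <;> exact h
  rw [hr]
  exact Q.mul_mem_left _ hy₀Q

/-- If `d ≡ 3 mod 4` then `τ₀` acts trivially modulo every ideal containing `2`. -/
theorem sub_mem_of_mod_four (Q : Ideal Zbar) (h2Q : (2 : Zbar) ∈ Q)
    (hd4 : d % 4 = 3) {x : Zbar} (hx : ∀ h : GQ, χ h = 1 → h • x = x) : τ₀ • x - x ∈ Q := by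
  obtain ⟨r, hr⟩ := exists_int_sub_eq_mul hτ₀ hy0 hodd hd hyd hx
  obtain ⟨T, hT⟩ := exists_int_add_of_fixed hτ₀ hx
  obtain ⟨n, hn⟩ := exists_int_mul_of_fixed hτ₀ hx
  have h1 : ((T ^ 2 - 4 * n : ℤ) : Zbar) = ((r ^ 2 * d : ℤ) : Zbar) := by
    push_cast
    rw [← hT, ← hn, ← hyd]
    have : (r : Zbar) ^ 2 * (y₀ * y₀) = ((r : Zbar) * y₀) ^ 2 := by ring
    rw [this, ← hr]
    ring
  have h2 : T ^ 2 - 4 * n = r ^ 2 * d := Int.cast_injective h1
  have h3 : (d : ZMod 4) = 3 := by
    have h := Int.emod_add_mul_ediv d 4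
    rw [hd4] at h
    rw [← h]
    push_cast
    have h4 : (4 : ZMod 4) = 0 := by decide
    rw [h4, zero_mul, add_zero]
  have h4 : (T : ZMod 4) ^ 2 = (r : ZMod 4) ^ 2 * 3 := by
    have h := congrArg (Int.cast : ℤ → ZMod 4) h2
    push_cast at h
    rw [h3] at h
    have h4 : (4 : ZMod 4) = 0 := by decide
    rw [h4, zero_mul, sub_zero] at h
    exact h
  have h5 : ∀ a b : ZMod 4, a ^ 2 = b ^ 2 * 3 → b = 0 ∨ b = 2 := by decide
  have h6 : (2 : ℤ) ∣ r := by
    rcases h5 _ _ h4 with h | h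
    · have := (ZMod.intCast_zmod_eq_zero_iff_dvd r 4).mp h
      exact dvd_trans (by norm_num) this
    · have h7 : ((r - 2 : ℤ) : ZMod 4) = 0 := by
        push_cast
        rw [h]
        ring
      have := (ZMod.intCast_zmod_eq_zero_iff_dvd (r - 2) 4).mp h7
      have h8 : (2 : ℤ) ∣ r - 2 := dvd_trans (by norm_num) this
      have h9 := dvd_add h8 (dvd_refl (2 : ℤ))
      simpa using h9
  obtain ⟨r', rfl⟩ := h6
  rw [hr]
  push_cast
  rw [mul_assoc]
  exact Q.mul_mem_right _ h2Q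

end Ramified

/-! ### The main theorem -/

section Main

/-- A squarefree integer whose only prime divisor is `3` and which is not `3 mod 4` is `1` or
`-3`. -/
theorem eq_one_or_eq_neg_three {d : ℤ} (hd : Squarefree d)
    (h3 : ∀ s : ℕ, s.Prime → (s : ℤ) ∣ d → s = 3) (h4 : d % 4 ≠ 3) : d = 1 ∨ d = -3 := by
  have hn : Squarefree d.natAbs := Int.squarefree_natAbs.mpr hd
  have hsub : d.natAbs.primeFactors ⊆ {3} := by
    intro s hs
    rw [Nat.mem_primeFactors] at hs
    rw [Finset.mem_singleton]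
    exact h3 s hs.1 (Int.natCast_dvd.mpr hs.2.1)
  have hprod := Nat.prod_primeFactors_of_squarefree hn
  have hcases : d.natAbs = 1 ∨ d.natAbs = 3 := by
    rcases Finset.subset_singleton_iff.mp hsub with h | h
    · left; rw [← hprod, h, Finset.prod_empty]
    · right; rw [← hprod, h, Finset.prod_singleton]
  rcases hcases with h | h
  · rcases Int.natAbs_eq d with h' | h'
    · left; rw [h', h]; rfl
    · exfalso; apply h4; rw [h', h]; rfl
  · rcases Int.natAbs_eq d with h' | h'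
    · exfalso; apply h4; rw [h', h]; rfl
    · right; rw [h', h]; rfl

variable {χ : GQ →* ℤˣ}

/-- A prime which ramifies in the quadratic field cut out by `χ` carries an inertia element on
which `χ` is nontrivial. -/
theorem exists_inertia_eq_neg_one (hopen : IsOpen (χ.ker : Set GQ)) {τ₀ : GQ} (hτ₀ : χ τ₀ = -1)
    {y₀ : Zbar} (hy0 : y₀ ≠ 0) (hodd : IsOdd χ y₀) {d : ℤ} (hd : Squarefree d)
    (hyd : y₀ * y₀ = (d : Zbar)) {s : ℕ} (hs : s.Prime)
    (hsd : (s : ℤ) ∣ d ∨ (s = 2 ∧ d % 4 = 3)) :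
    ∃ V : ValuationSubring Qbar, V.LiesOverPrime s ∧ ∃ σ ∈ V.inertiaSubgroupIn ℚ, χ σ = -1 := by
  obtain ⟨V, hV⟩ := exists_valuationSubring_liesOverPrime s hs
  refine ⟨V, hV, ?_⟩
  have hclosed : IsClosed (χ.ker : Set GQ) := Subgroup.isClosed_of_isOpen _ hopen
  have hsQ : (s : Zbar) ∈ primeOf V := by
    rw [mem_primeOf_iff]
    have : (((s : Zbar)) : Qbar) = (s : Qbar) := by simp
    rw [this]
    exact hV
  have hτ : ∀ b : Zbar, (∀ h : χ.ker, h • b = b) → τ₀ • b - b ∈ primeOf V := by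
    intro b hb
    have hb' : ∀ h : GQ, χ h = 1 → h • b = b := fun h hh => hb ⟨h, MonoidHom.mem_ker.mpr hh⟩
    rcases hsd with hsd | ⟨rfl, hd4⟩
    · exact sub_mem_of_dvd hτ₀ hy0 hodd hd hyd (primeOf V) hsQ hsd hb'
    · refine sub_mem_of_mod_four hτ₀ hy0 hodd hd hyd (primeOf V) ?_ hd4 hb'
      simpa using hsQ
  obtain ⟨σ, hσI, hσH⟩ := exists_inertia_mem_coset χ.ker V hs hV hclosed τ₀ hτ
  refine ⟨σ, hσI, ?_⟩
  rw [MonoidHom.mem_ker, map_mul, map_inv, hτ₀] at hσH
  rcases Int.units_eq_one_or (χ σ) with h | h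
  · rw [h] at hσH; exact absurd hσH (by decide)
  · exact h

/-- **Quadratic characters unramified outside `3`.**  A character `χ : Gal(ℚ̄/ℚ) → {±1}` with open
kernel which is trivial on the inertia groups at all primes `s ≠ 3` is trivial on every
automorphism fixing the cube roots of unity. -/
theorem quadChar_eq_one_of_fixes_cubeRoots (hopen : IsOpen (χ.ker : Set GQ))
    (hunr : ∀ s : ℕ, s.Prime → s ≠ 3 → ∀ A : ValuationSubring Qbar, A.LiesOverPrime s →
      ∀ σ ∈ A.inertiaSubgroupIn ℚ, χ σ = 1)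
    (σ₀ : GQ) (hσ₀ : ∀ z : Qbar, z ^ 3 = 1 → σ₀ z = z) : χ σ₀ = 1 := by
  by_contra hne
  have hτ₀ : χ σ₀ = -1 := (Int.units_eq_one_or (χ σ₀)).resolve_left hne
  obtain ⟨y, hy0', hy⟩ := exists_isOdd hopen hτ₀
  obtain ⟨y₀, d, hy0, hodd, hd, hyd⟩ := exists_isOdd_squarefree hy0' hy
  have hram : ∀ s : ℕ, s.Prime → ((s : ℤ) ∣ d ∨ (s = 2 ∧ d % 4 = 3)) → s = 3 := by
    intro s hs hsd
    by_contra hs3
    obtain ⟨V, hV, σ, hσ, hχσ⟩ := exists_inertia_eq_neg_one hopen hτ₀ hy0 hodd hd hyd hs hsd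
    have := hunr s hs hs3 V hV σ hσ
    rw [hχσ] at this
    exact absurd this (by decide)
  have h3 : ∀ s : ℕ, s.Prime → (s : ℤ) ∣ d → s = 3 := fun s hs h => hram s hs (Or.inl h)
  have h4 : d % 4 ≠ 3 := by
    intro h
    have := hram 2 Nat.prime_two (Or.inr ⟨rfl, h⟩)
    omega
  have hneg : σ₀ • y₀ = -y₀ := by
    rw [hodd σ₀, sgn_of_eq_neg_one χ hτ₀]; ring
  have hfix_absurd : σ₀ • y₀ = y₀ → False := by
    intro h
    rw [hneg] at h
    have h2 : (2 : Zbar) * y₀ = 0 := by linear_combination -h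
    rcases mul_eq_zero.mp h2 with h2 | h2
    · exact two_ne_zero h2
    · exact hy0 h2
  rcases eq_one_or_eq_neg_three hd h3 h4 with rfl | rfl
  · -- `d = 1`: `y₀ = ± 1` is fixed by everything.
    have h1 : (y₀ - 1) * (y₀ + 1) = 0 := by
      have : y₀ * y₀ = 1 := by simpa using hyd
      linear_combination this
    rcases mul_eq_zero.mp h1 with h1 | h1
    · apply hfix_absurd
      rw [sub_eq_zero.mp h1, smul_one]
    · apply hfix_absurd
      rw [eq_neg_of_add_eq_zero_left h1, smul_neg, smul_one]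
  · -- `d = -3`: `y₀ = 2 ζ₃ + 1` is fixed by `σ₀`.
    have hyQ : (y₀ : Qbar) * (y₀ : Qbar) = -3 := by
      have := congrArg (Subtype.val : Zbar → Qbar) hyd
      have h3 : (((-3 : ℤ) : Zbar) : Qbar) = -3 := by
        push_cast
        rfl
      rw [h3] at this
      exact this
    have hζ : ((-1 + (y₀ : Qbar)) / 2) ^ 3 = 1 := by
      field_simp
      linear_combination ((y₀ : Qbar) - 3) * hyQ
    have h1 := hσ₀ _ hζ
    apply hfix_absurd
    apply Subtype.ext
    change σ₀ (y₀ : Qbar) = (y₀ : Qbar)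
    rw [map_div₀, map_add, map_neg, map_one, map_ofNat] at h1
    have h2 : (2 : Qbar) ≠ 0 := two_ne_zero
    field_simp at h1
    linear_combination h1

end Main

/-! ### Variants: characters with values in a group with two elements, and sign actions -/

section Variants

open Classical in
/-- The sign homomorphism on a group with at most one nontrivial element. -/
noncomputable def signHom {M : Type*} [Group M] (hM : ∀ a b : M, a ≠ 1 → b ≠ 1 → a = b) :
    M →* ℤˣ where
  toFun m := if m = 1 then 1 else -1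
  map_one' := by simp
  map_mul' a b := by
    by_cases ha : a = 1
    · subst ha; simp
    · by_cases hb : b = 1
      · subst hb; simp
      · have hab : a * b = 1 := by
          by_contra hne
          have h1 : a * b = a := hM _ _ hne ha
          exact hb (mul_left_cancel (h1.trans (mul_one a).symm))
        simp [ha, hb, hab]

theorem signHom_eq_one_iff {M : Type*} [Group M] (hM : ∀ a b : M, a ≠ 1 → b ≠ 1 → a = b)
    (m : M) : signHom hM m = 1 ↔ m = 1 := by
  classical
  change (if m = 1 then (1 : ℤˣ) else -1) = 1 ↔ m = 1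
  by_cases hm : m = 1
  · simp [hm]
  · simp only [hm, if_false, iff_false]
    decide

/-- **Quadratic characters unramified outside `3`**, for characters with values in any group with
at most one nontrivial element (for instance `(ZMod 3)ˣ`). -/
theorem char_eq_one_of_fixes_cubeRoots {M : Type*} [Group M]
    (hM : ∀ a b : M, a ≠ 1 → b ≠ 1 → a = b) (χ : GQ →* M) (hopen : IsOpen (χ.ker : Set GQ))
    (hunr : ∀ s : ℕ, s.Prime → s ≠ 3 → ∀ A : ValuationSubring Qbar, A.LiesOverPrime s →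
      ∀ σ ∈ A.inertiaSubgroupIn ℚ, χ σ = 1)
    (σ₀ : GQ) (hσ₀ : ∀ z : Qbar, z ^ 3 = 1 → σ₀ z = z) : χ σ₀ = 1 := by
  have hker : (((signHom hM).comp χ).ker : Set GQ) = (χ.ker : Set GQ) := by
    ext σ
    simp only [SetLike.mem_coe, MonoidHom.mem_ker, MonoidHom.comp_apply, signHom_eq_one_iff]
  have h := quadChar_eq_one_of_fixes_cubeRoots (χ := (signHom hM).comp χ) (by rw [hker]; exact hopen)
    (fun s hs hs3 A hA σ hσ => by
      rw [MonoidHom.comp_apply, signHom_eq_one_iff]
      exact hunr s hs hs3 A hA σ hσ) σ₀ hσ₀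
  rwa [MonoidHom.comp_apply, signHom_eq_one_iff] at h

open Classical in
/-- The sign character of a point which every automorphism maps to itself or to its negative. -/
noncomputable def pointChar {M : Type*} [AddCommGroup M] [DistribMulAction GQ M] (P : M)
    (hsign : ∀ σ : GQ, σ • P = P ∨ σ • P = -P) (hP : -P ≠ P) : GQ →* ℤˣ where
  toFun σ := if σ • P = P then 1 else -1
  map_one' := by simp
  map_mul' σ τ := by
    rw [mul_smul]
    rcases hsign τ with hτ | hτ <;> rcases hsign σ with hσ | hσ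
    · simp [hτ, hσ]
    · simp [hτ, hσ, hP]
    · simp [hτ, hσ, hP]
    · simp [hτ, hσ, hP]

theorem pointChar_eq_one_iff {M : Type*} [AddCommGroup M] [DistribMulAction GQ M] (P : M)
    (hsign : ∀ σ : GQ, σ • P = P ∨ σ • P = -P) (hP : -P ≠ P) (σ : GQ) :
    pointChar P hsign hP σ = 1 ↔ σ • P = P := by
  classical
  change (if σ • P = P then (1 : ℤˣ) else -1) = 1 ↔ σ • P = P
  by_cases h : σ • P = P
  · simp [h]
  · simp only [h, if_false, iff_false]
    decide

/-- **Sign actions unramified outside `3`.**  Let `P` be a point of an additive group with an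
action of `Gal(ℚ̄/ℚ)` such that every automorphism maps `P` to `± P` (for instance a generator of a
Galois stable line in the `3`-torsion of an elliptic curve), with open stabiliser, fixed by the
inertia groups at all primes `s ≠ 3`.  Then `P` is fixed by every automorphism fixing the cube roots
of unity. -/
theorem smul_eq_of_fixes_cubeRoots {M : Type*} [AddCommGroup M] [DistribMulAction GQ M] (P : M)
    (hsign : ∀ σ : GQ, σ • P = P ∨ σ • P = -P)
    (hopen : IsOpen (MulAction.stabilizer GQ P : Set GQ))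
    (hunr : ∀ s : ℕ, s.Prime → s ≠ 3 → ∀ A : ValuationSubring Qbar, A.LiesOverPrime s →
      ∀ σ ∈ A.inertiaSubgroupIn ℚ, σ • P = P)
    (σ₀ : GQ) (hσ₀ : ∀ z : Qbar, z ^ 3 = 1 → σ₀ z = z) : σ₀ • P = P := by
  by_cases hP : -P = P
  · rcases hsign σ₀ with h | h
    · exact h
    · rw [h, hP]
  · have hker : ((pointChar P hsign hP).ker : Set GQ) = (MulAction.stabilizer GQ P : Set GQ) := by
      ext σ
      simp only [SetLike.mem_coe, MonoidHom.mem_ker, pointChar_eq_one_iff,
        MulAction.mem_stabilizer_iff]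
    have h := quadChar_eq_one_of_fixes_cubeRoots (χ := pointChar P hsign hP)
      (by rw [hker]; exact hopen)
      (fun s hs hs3 A hA σ hσ => by
        rw [pointChar_eq_one_iff]
        exact hunr s hs hs3 A hA σ hσ) σ₀ hσ₀
    rwa [pointChar_eq_one_iff] at h

end Variants

end Fermat.Agent.S52.QuadChar59
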