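/-
S52 (3-5 switch), block B0 (helper80): trivial half and conditional wiring.

If `W[3]` is irreducible the curve `W' := W` works.  Otherwise S52 is reduced to the proposition
`Switch W` (existence of a non-isogenous `5`-congruent semistable curve with irreducible `3`-torsion).
-/
import Mathlib
import Fermat.Prelude.Def_FLTPrelim_FreyPackage
import Fermat.Prelude.Def_FLTPrelim_GaloisRep
import Fermat.Prelude.Def_FLTPrelim_Modularity
import Fermat.Prelude.Def_FLTPrelim_ModularRep

set_option autoImplicit false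

open WeierstrassCurve

namespace Fermat.Agent.S52.Wiring

/-- The conclusion of S52 for the curve `W`. -/
def Concl (W : WeierstrassCurve ℤ) : Prop :=
  ∃ W' : WeierstrassCurve ℤ, W'.Δ ≠ 0 ∧ W'.IsSemistableModel ∧ W'.ModRepIsIrreducible 3 ∧
    ∀ ℓ : ℕ, ℓ.Prime → W.IsGoodPrimeFor ℓ → W'.IsGoodPrimeFor ℓ → ℓ ≠ 5 →
      (5 : ℤ) ∣ (W'.apOfModel ℓ - W.apOfModel ℓ)

/-- The easy half: a curve with irreducible `3`-torsion is its own switch curve. -/
theorem concl_of_irreducible_three (W : WeierstrassCurve ℤ) (hΔ : W.Δ ≠ 0)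
    (hW : W.IsSemistableModel) (h3 : W.ModRepIsIrreducible 3) : Concl W :=
  ⟨W, hΔ, hW, h3, fun ℓ _ _ _ _ => by simp⟩

/-- The hard half, as a proposition: the switch for curves with reducible `3`-torsion. -/
def Switch (W : WeierstrassCurve ℤ) : Prop :=
  W.Δ ≠ 0 → W.IsSemistableModel → W.ModRepIsIrreducible 5 → ¬ W.ModRepIsIrreducible 3 → Concl W

/-- S52 from the hard half. -/
theorem concl_of_switch (W : WeierstrassCurve ℤ) (hS : Switch W) (hΔ : W.Δ ≠ 0)
    (hW : W.IsSemistableModel) (h5 : W.ModRepIsIrreducible 5) : Concl W := by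
  by_cases h3 : W.ModRepIsIrreducible 3
  · exact concl_of_irreducible_three W hΔ hW h3
  · exact hS hΔ hW h5 h3

end Fermat.Agent.S52.Wiring
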